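import Fermat.Agent.BAD.Toric.SerFactor
import Fermat.Agent.BAD.Diamond.Witness

/-!
# Roots of functions of full level `q M`

A homomorphism on the integral functions of level `q M` fixing the constants is evaluation at a
point, so roots of the expansions of a function with divisible zeros have contents at every cusp.
-/

set_option autoImplicit false

open UpperHalfPlane CongruenceSubgroup IsLocalRing Polynomial
open scoped MatrixGroups Manifold

noncomputable section

namespace FermatAgent.BAD.Sq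

open FermatAgent.ES (BSub BRing lexp zetaC AuxLevel CPlace GoodRoot GalGrp repG charFun vanishOrd
  liftSer cuspSer)

variable {q M m : ℕ} [hq : Fact q.Prime] [NeZero M] {O : Subring ℂ}

/-- A constant of level `q M`. -/
def constB : O →+* BRing (q * M) O where
  toFun a := ⟨fun _ => (a : ℂ), ES.const_mem_BRing a.2⟩
  map_one' := rfl
  map_mul' _ _ := rfl
  map_zero' := rfl
  map_add' _ _ := rfl

/-- A constant as a function. -/
theorem coe_constB (a : O) : ((constB a : BRing (q * M) O) : ℍ → ℂ) = fun _ => (a : ℂ) := rfl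

theorem liftSer_cuspSer_constB (γ : SL(2, ℤ)) (a : O) :
    cuspSer (M := q * M) O γ (constB a) = HahnSeries.C a :=
  ES.liftSer_injective O.subtype_injective (by
    rw [ES.liftSer_cuspSer, coe_constB, ES.lexp_eq (ES.HasLExp.const (a : ℂ)), liftSer_C]
    rfl)

theorem cuspSer_ne_zero {f : BRing (q * M) O} (hf : f ≠ 0) (γ : SL(2, ℤ)) :
    cuspSer (M := q * M) O γ f ≠ 0 := fun h => hf (Subtype.ext
  (ES.lexp_injective f.2.1 (0 : BRing (q * M) O).2.1 (γ := γ) (by
    rw [← ES.liftSer_cuspSer O γ f, ← ES.liftSer_cuspSer O γ (0 : BRing (q * M) O), h, map_zero,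
      map_zero, map_zero])))

section Points

variable (haux : AuxLevel M m) (hA : GoodRoot M O (zetaC M))
  (ψ : BRing (q * M) O →+* ℂ) (hψ : ∀ a : O, ψ (constB a) = a)

include haux hA hψ in
/-- **Points of full level.** -/
theorem exists_point_level : ∃ τ, ∀ x : BRing (q * M) O, ψ x = (x : ℍ → ℂ) τ := by
  classical
  let ι : LRing q M O →+* BRing (q * M) O := Subring.inclusion inf_le_left
  obtain ⟨τ0, hτ0⟩ := exists_point_of_constHom haux hA (ψ.comp ι) fun a => hψ a
  have key : ∀ x : BRing (q * M) O,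
      ∃ g : GalGrp (q * M) m, ψ x = (x : ℍ → ℂ) (repG (q * M) m g • τ0) := by
    intro x
    have hmem : ∀ i, (charFun (q * M) m (x : ℍ → ℂ)).coeff i ∈ BRing M O := fun i =>
      mem_BRing_of_inv (ES.charFun_coeff_mem x.2 i) fun γ hγ =>
        ES.charFun_coeff_invariant x.2.1 i (ES.gamma_le_of_dvd haux.dvd hγ)
    have hlift : charFun (q * M) m (x : ℍ → ℂ) ∈ lifts (BRing M O).subtype := by
      rw [lifts_iff_coeff_lifts]
      exact fun i => ⟨⟨_, hmem i⟩, rfl⟩
    obtain ⟨F, hF⟩ := hlift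
    rw [coe_mapRingHom] at hF
    set Q := F.map (ι.comp (raiseL (q := q) M))
    have hzero : Q.eval x = 0 := by
      refine Subtype.ext ?_
      rw [← Subring.coe_subtype, ← eval_map_apply, show Q.map (BRing (q * M) O).subtype =
        charFun (q * M) m (x : ℍ → ℂ) by rw [Polynomial.map_map, ← hF]; rfl, charFun, eval_prod,
        map_zero]
      refine Finset.prod_eq_zero (Finset.mem_univ (1 : GalGrp (q * M) m)) ?_
      rw [eval_sub, eval_X, eval_C]
      have := ES.act_eq_act_repG x.2.1 (1 : Gamma m)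
      rw [Subgroup.coe_one, ES.act_one, QuotientGroup.mk_one] at this
      rw [← this]
      exact sub_self _
    have hmap : Q.map ψ = (charFun (q * M) m (x : ℍ → ℂ)).map
        (Pi.evalRingHom (fun _ : ℍ => ℂ) τ0) := by
      ext i
      rw [coeff_map, coeff_map, coeff_map, ← hF, coeff_map, Subring.coe_subtype]
      exact hτ0 (raiseL M (F.coeff i))
    have h := congrArg ψ hzero
    rw [← eval_map_apply, map_zero, hmap, charFun, Polynomial.map_prod, eval_prod,
      Finset.prod_eq_zero_iff] at h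
    obtain ⟨g, -, hg⟩ := h
    rw [Polynomial.map_sub, Polynomial.map_X, Polynomial.map_C, eval_sub, eval_X, eval_C,
      sub_eq_zero] at hg
    exact ⟨g, hg⟩
  by_contra hno
  push Not at hno
  choose w hw using fun g : GalGrp (q * M) m => hno (repG (q * M) m g • τ0)
  set e := Fintype.equivFin (GalGrp (q * M) m)
  set Φ : GalGrp (q * M) m → ℂ[X] := fun g => ∑ k : GalGrp (q * M) m,
    C (ψ (w k) - (w k : ℍ → ℂ) (repG (q * M) m g • τ0)) * X ^ (e k : ℕ)
  have hΦ : ∀ g, Φ g ≠ 0 := fun g h0 => hw g (by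
    have h1 := congrArg (fun P : ℂ[X] => P.coeff (e g : ℕ)) h0
    simp only [Φ, finsetSum_coeff, coeff_C_mul, coeff_X_pow, mul_ite, mul_one, mul_zero,
      coeff_zero] at h1
    rw [Finset.sum_eq_single g (fun k _ hk => if_neg fun h => hk
      (e.injective (Fin.ext h.symm))) (by simp), if_pos rfl, sub_eq_zero] at h1
    exact h1)
  set bad : Finset ℂ := Finset.univ.biUnion fun g => (Φ g).roots.toFinset
  obtain ⟨c, hc⟩ := Set.Infinite.exists_notMem_finset
    (Set.infinite_range_of_injective (Nat.cast_injective (R := ℂ))) bad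
  obtain ⟨⟨i, rfl⟩, hc⟩ := hc
  set z : BRing (q * M) O := ∑ k : GalGrp (q * M) m,
    constB ⟨(i : ℂ) ^ (e k : ℕ), O.pow_mem (natCast_mem O i) _⟩ * w k
  obtain ⟨g, hg⟩ := key z
  refine hc (Finset.mem_biUnion.mpr ⟨g, Finset.mem_univ g, ?_⟩)
  rw [Multiset.mem_toFinset, mem_roots (hΦ g), IsRoot.def]
  have h1 : ψ z = ∑ k, (i : ℂ) ^ (e k : ℕ) * ψ (w k) := by
    simp only [z, map_sum, map_mul, hψ]
  have h2 : (z : ℍ → ℂ) (repG (q * M) m g • τ0) =
      ∑ k, (i : ℂ) ^ (e k : ℕ) * (w k : ℍ → ℂ) (repG (q * M) m g • τ0) := by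
    have := map_sum ((Pi.evalRingHom (fun _ : ℍ => ℂ) (repG (q * M) m g • τ0)).comp
      (BRing (q * M) O).subtype) (fun k => constB ⟨(i : ℂ) ^ (e k : ℕ),
        O.pow_mem (natCast_mem O i) _⟩ * w k) Finset.univ
    exact this
  simp only [Φ, eval_finsetSum, eval_mul, eval_C, eval_pow, eval_X, sub_mul,
    Finset.sum_sub_distrib]
  rw [sub_eq_zero]
  rw [h1, h2] at hg
  calc _ = ∑ k, (i : ℂ) ^ (e k : ℕ) * ψ (w k) := Finset.sum_congr rfl fun k _ => mul_comm _ _
    _ = _ := hg
    _ = _ := Finset.sum_congr rfl fun k _ => mul_comm _ _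

end Points

section Witness

/-- The multiplicities of the zeros are divisible by `n`, witnessed over `O` at full level. -/
def DivB (q M : ℕ) [Fact q.Prime] [NeZero M] (O : Subring ℂ) (n : ℕ) (y : ℍ → ℂ) : Prop :=
  ∀ τ, y τ = 0 → ∃ (i : ℕ) (E D X : BRing (q * M) O), (E : ℍ → ℂ) τ ≠ 0 ∧ (X : ℍ → ℂ) τ ≠ 0 ∧
    y * (E : ℍ → ℂ) = (D : ℍ → ℂ) ^ (n * i) * (X : ℍ → ℂ)

variable (haux : AuxLevel M m)
include haux

/-- **Divisibility over a ring with finitely many generators.** -/
theorem exists_finset_divB {P : CPlace q} (hM : M.Coprime q) {n : ℕ} {y : ℍ → ℂ}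
    (hy : y ∈ BSub (q * M)) (hy0 : y ≠ 0) (hord : ∀ τ (j : ℕ), vanishOrd y τ = j → n ∣ j) :
    ∃ S : Finset ℂ, (S : Set ℂ) ⊆ P.ring ∧ ∀ O : Subring ℂ, P.IsCDVR O →
      GoodRoot M O (zetaC M) → zetaC (q * M) ∈ O → (S : Set ℂ) ⊆ O → DivB q M O n y := by
  obtain ⟨S, hS, h⟩ := exists_finset_witness (P := P) haux gamma_qM_le hM (y := y) ⟨hy, hy.1⟩ hy0
    hord
  refine ⟨S, hS, fun O hO hA hζ hs τ hτ => ?_⟩
  obtain ⟨i, E, D, X, h1, h2, h3⟩ := h O hO hA hζ hs τ hτ
  exact ⟨i, ⟨E, E.2.1⟩, ⟨D, D.2.1⟩, ⟨X, X.2.1⟩, h1, h2, h3⟩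

end Witness

section Factor

variable (haux : AuxLevel M m) (hA : GoodRoot M O (zetaC M)) {P : CPlace q} (hO' : P.IsCDVR O)

include haux hA in
/-- Expansions of functions with divisible zeros have divisible zeros, at full level. -/
theorem divSer_cuspSer {n : ℕ} {f : BRing (q * M) O} (hd : DivB q M O n (f : ℍ → ℂ))
    (γ : SL(2, ℤ)) : Toric.DivSer n (cuspSer (M := q * M) O γ f) := fun Ψ hΨ hf => by
  obtain ⟨τ, hτ⟩ := exists_point_level haux hA (Ψ.comp (cuspSer (M := q * M) O γ)) fun c => by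
    rw [RingHom.comp_apply, liftSer_cuspSer_constB, hΨ]
  have hev : ∀ x : BRing (q * M) O, Ψ (cuspSer O γ x) = (x : ℍ → ℂ) τ := hτ
  obtain ⟨i, E, D, G, hE, hG, heq⟩ := hd τ (by rw [← hev, hf])
  exact ⟨i, _, cuspSer O γ D, _, (hev E).trans_ne hE, (hev G).trans_ne hG, by
    rw [← map_mul, ← map_pow, ← map_mul, show f * E = D ^ (n * i) * G from Subtype.ext heq]⟩

include haux hA hO' in
/-- **A root of the expansion has a content, at full level.** -/
theorem hasContent_of_rootB [IsDiscreteValuationRing O] {n : ℕ} (hn : n.Coprime q)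
    {f : BRing (q * M) O} (hf : f ≠ 0) (hd : DivB q M O n (f : ℍ → ℂ)) (γ : SL(2, ℤ))
    {s : LaurentSeries ℂ} (hs : s ^ n = lexp (q * M) γ (f : ℍ → ℂ)) :
    Toric.HasContent P s :=
  Toric.hasContent_of_divSer hO' hn (cuspSer_ne_zero hf γ) (divSer_cuspSer haux hA hd γ)
    (by rw [hs, ES.liftSer_cuspSer])

end Factor

end FermatAgent.BAD.Sq

end
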