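import Fermat.Agent.BAD.Sq.Elem.Bound
import Fermat.Agent.BAD.Sq.Elem.Root

/-!
# Contents of roots of functions of level `q M`

Expansions of forms with multiplier of order prime to `q` have contents at every cusp.
-/

set_option autoImplicit false

open UpperHalfPlane CongruenceSubgroup
open scoped MatrixGroups ModularForm Manifold

noncomputable section

namespace FermatAgent.BAD.Sq

open FermatAgent.ES (BSub BRing HasLExp lexp lexp_eq act zetaC AuxLevel CPlace GoodRoot IsTwist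
  IsParChar auxW vanishOrd)
open Toric (Normed HasContent)

variable {q M m : ℕ} [hq : Fact q.Prime] [NeZero M] {P : CPlace q} (haux : AuxLevel M m)
  (hM : M.Coprime q) (hP : P.HasCDVRs)
include haux hM hP

/-- **An expansion of a root of a function with divisible zeros has a content.** -/
theorem hasContent_of_pow {n : ℕ} [NeZero n] (hn : n.Coprime q) {F : ℍ → ℂ}
    (hFn : F ^ n ∈ BSub (q * M)) (hF0 : F ^ n ≠ 0)
    (hord : ∀ τ (i : ℕ), vanishOrd (F ^ n) τ = i → n ∣ i) {γ : SL(2, ℤ)} {s : LaurentSeries ℂ}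
    (hs : HasLExp (q * M) (act γ F) s) : HasContent P s := by
  classical
  obtain ⟨j, hj⟩ := exists_pow_mul_mem (P := P) haux hM hP hFn
  have hqj : ((q : ℂ) ^ j) ≠ 0 := pow_ne_zero _ (Nat.cast_ne_zero.mpr hq.out.ne_zero)
  set y : ℍ → ℂ := (fun _ => ((q : ℂ) ^ j) ^ n) * F ^ n
  have hy : y ∈ BRing (q * M) P.ring := by
    have e : y = (fun _ : ℍ => ((q : ℂ) ^ j) ^ (n - 1)) * ((fun _ => (q : ℂ) ^ j) * F ^ n) := by
      funext τ
      simp only [y, Pi.mul_apply]
      rw [← mul_assoc, ← pow_succ, Nat.sub_add_cancel (NeZero.one_le (n := n))]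
    rw [e]
    exact mul_mem
      (ES.const_mem_BRing (P.ring.pow_mem (P.ring.pow_mem (natCast_mem P.ring q) _) _))
      hj
  have hy0 : y ≠ 0 := fun h => hF0 (funext fun τ =>
    (mul_eq_zero.mp (congrFun h τ)).resolve_left (pow_ne_zero n hqj))
  have hord' : ∀ τ (i : ℕ), vanishOrd y τ = i → n ∣ i := fun τ i hi => by
    have hc : MDiff (fun _ : ℍ => ((q : ℂ) ^ j) ^ n) :=
      ES.mdifferentiable_of_mem (const_mem_BSub (q := q) (M := M) _)
    rw [ES.vanishOrd_mul hc (ES.mdifferentiable_of_mem hFn),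
      (ES.vanishOrd_eq_zero hc).mpr (pow_ne_zero n hqj), zero_add] at hi
    exact hord τ i hi
  obtain ⟨S1, hS1, hS1O⟩ := exists_finset_mem_BRing_level haux hM hy
  obtain ⟨S2, hS2, hS2O⟩ := exists_finset_divB (P := P) haux hM hy.1 hy0 hord'
  obtain ⟨O, hO', hA, hζ, hsub⟩ := Toric.exists_coeffRing (M := M) hM hP
    (S := ↑(S1 ∪ S2)) (S1 ∪ S2).finite_toSet (by
      simp only [Finset.coe_union]; exact Set.union_subset hS1 hS2)
  simp only [Finset.coe_union, Set.union_subset_iff] at hsub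
  have := hO'.dvr
  have hroot : (HahnSeries.C ((q : ℂ) ^ j) * s) ^ n = lexp (q * M) γ y := by
    refine (lexp_eq ?_).symm
    exact (((HasLExp.const _).mul hs).pow n).congr_fun fun τ => by
      simp [y, act, mul_pow]
  have hc := hasContent_of_rootB haux hA hO' hn (f := ⟨y, hS1O O hO' hA hζ hsub.1⟩)
    (fun h => hy0 (congrArg Subtype.val h)) (hS2O O hO' hA hζ hsub.2) γ hroot
  have h := hc.C_mul (inv_ne_zero hqj)
  rwa [← mul_assoc, ← map_mul, inv_mul_cancel₀ hqj, map_one, one_mul] at h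

variable {Γ : Subgroup SL(2, ℤ)} {i : ℕ} {χ : Γ →* ℂˣ} {v : ℍ → ℂ}

/-- **Forms with multiplier divided by the standard form have contents at every cusp.** -/
theorem hasContent_form_div {n : ℕ} [NeZero n] (hn : n.Coprime q) (hΓ : Gamma (q * M) ≤ Γ)
    (hχn : χ ^ n = 1) (hχ : IsParChar Γ χ) (hv : IsTwist Γ ((2 * i : ℕ) : ℤ) χ v) (hv0 : v ≠ 0)
    (γ : SL(2, ℤ)) :
    HasContent P (HahnSeries.ofPowerSeries ℤ ℂ
      (qExpansion ((q * M : ℕ) : ℝ) (v ∣[((2 * i : ℕ) : ℤ)] γ)) *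
        (expandL q (wSer haux γ) ^ i)⁻¹) := by
  refine hasContent_of_pow haux hM hP hn (F := fun τ => v τ / auxW haux τ ^ i) ?_ (fun h => ?_)
    (fun τ j hj => ES.vanishOrd_pow_form (auxLevel_level (q := q) haux) (n := n) hχn hv τ j
      (by rwa [auxW_level haux]))
    (Toric.hasLExp_form_div_level haux (q := q) (ES.hasExp_slash_twist (M := q * M) hΓ hχ hv γ))
  · have h := ES.pow_form_mem (auxLevel_level (q := q) haux) (n := n) hΓ hχn hv
    rwa [auxW_level haux] at h
  · obtain ⟨τ0, hτ0⟩ := Function.ne_iff.mp hv0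
    exact pow_ne_zero n (div_ne_zero hτ0 (pow_ne_zero _ (ES.auxW_ne_zero haux τ0))) (congrFun h τ0)

/-- **The expansions of forms with multiplier have contents.** -/
theorem hasContent_form {n : ℕ} [NeZero n] (hn : n.Coprime q) (hΓ : lam q M ≤ Γ)
    (hχn : χ ^ n = 1) (hχ : IsParChar Γ χ) (hv : IsTwist Γ ((2 * i : ℕ) : ℤ) χ v) (hv0 : v ≠ 0)
    (γ : SL(2, ℤ)) :
    HasContent P (HahnSeries.ofPowerSeries ℤ ℂ
      (qExpansion ((q * M : ℕ) : ℝ) (v ∣[((2 * i : ℕ) : ℤ)] γ))) := by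
  have hW := (Toric.normed_expandL (Toric.normed_wSer (P := P) haux hM γ)).pow i
  have h := (hasContent_form_div haux hM hP hn (gamma_qM_le.trans hΓ) hχn hχ hv hv0 γ).mul
    hW.hasContent
  rwa [inv_mul_cancel_right₀ hW.ne_zero] at h

end FermatAgent.BAD.Sq
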