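import Fermat.Agent.BAD.Sq.Elem.Trace
import Fermat.Agent.BAD.Toric.AtkinForm

/-!
# The unit small at the cusps of type `∞`

A function without zeros, with fixed expansion together with its inverse, of absolute value `|q| ^
2` at the cusps of type `∞` and one at the others.
-/

set_option autoImplicit false

open UpperHalfPlane CongruenceSubgroup
open scoped MatrixGroups

noncomputable section

namespace FermatAgent.BAD.Sq

open FermatAgent.ES (BSub SerIn HasLExp lexp lexp_eq hasLExp_lexp act zetaC AuxLevel CPlace)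
open Toric (Normed HasContent)

variable {q M m : ℕ} [hq : Fact q.Prime] [NeZero M]

theorem hasTyp_inv {P : CPlace q} (haux : AuxLevel M m) (hM : M.Coprime q) (hP : P.HasCDVRs)
    {p : ℍ → ℂ} (hp0 : ∀ τ, p τ ≠ 0) (hp : p ∈ BSub (q * M)) (hpi : p⁻¹ ∈ BSub (q * M))
    {r : Typ → ℝ} (hr : HasTyp q M P p r) : HasTyp q M P p⁻¹ r⁻¹ := fun t γ hγ => by
  obtain ⟨s, hs, hrs⟩ := hr t γ hγ
  have hone : p * p⁻¹ = 1 := funext fun τ => mul_inv_cancel₀ (hp0 τ)
  obtain ⟨r', hr'⟩ :=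
    exists_hasAbs_lexp haux hM hP hpi (fun h => inv_ne_zero (hp0 I) (congrFun h I)) γ
  refine ⟨_, hasLExp_lexp hpi γ, ?_⟩
  have h1 : s * lexp (q * M) γ p⁻¹ = 1 := by
    rw [← lexp_eq hs, ← lexp_mul hp hpi, hone]
    exact lexp_eq (HasLExp.one.congr_fun fun τ => rfl)
  have h2 : r t * r' = 1 := (hrs.mul hr').unique (by rw [h1]; exact hasAbs_one)
  rwa [show (r⁻¹ : Typ → ℝ) t = r' from (eq_inv_of_mul_eq_one_right h2).symm]

/-- Integral powers of a unit. -/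
theorem zpow_unit {P : CPlace q} (haux : AuxLevel M m) (hM : M.Coprime q) (hP : P.HasCDVRs)
    {p : ℍ → ℂ} (hp0 : ∀ τ, p τ ≠ 0) (hp : p ∈ FixR q M P) (hpi : p⁻¹ ∈ FixR q M P)
    {r : Typ → ℝ} (hr : HasTyp q M P p r) (k : ℤ) :
    p ^ k ∈ FixR q M P ∧ HasTyp q M P (p ^ k) (r ^ k) := by
  cases k with
  | ofNat j => exact ⟨by simpa using pow_mem hp j, by simpa using hr.pow j⟩
  | negSucc j =>
    rw [zpow_negSucc, zpow_negSucc, ← inv_pow, ← inv_pow]
    exact ⟨pow_mem hpi _, (hasTyp_inv haux hM hP hp0 hp.1 hpi.1 hr).pow _⟩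

variable {Φ : ℂ ≃+* PadicAlgCl q} (haux : AuxLevel M m) (hM : M.Coprime q) (hqm : q ≠ m)
include haux hM hqm

/-- **The unit.** -/
theorem exists_unit_inf :
    ∃ p : ℍ → ℂ, (∀ τ, p τ ≠ 0) ∧ p ∈ FixR q M (CPlace.ofEquiv Φ) ∧
      p⁻¹ ∈ FixR q M (CPlace.ofEquiv Φ) ∧
      HasTyp q M (CPlace.ofEquiv Φ) p
        (fun t => if t = .inf then (CPlace.ofEquiv Φ).abv q ^ 2 else 1) := by
  classical
  set P := CPlace.ofEquiv Φ
  set H := hasseFun haux q
  set p := atkin hM H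
  have hH0 : ∀ τ, H τ ≠ 0 := fun τ => div_ne_zero (ES.auxW_ne_zero haux τ) (ES.auxW_ne_zero haux _)
  have hpe : ∀ τ, p τ = (q : ℂ) ^ 2 / H τ := fun τ => congrFun (Toric.atkin_hasse haux hM hqm) τ
  have hq0 : (q : ℂ) ≠ 0 := Nat.cast_ne_zero.mpr hq.out.ne_zero
  have hp0 : ∀ τ, p τ ≠ 0 := fun τ => by rw [hpe]; exact div_ne_zero (pow_ne_zero 2 hq0) (hH0 τ)
  have hAf : ES.GoodRoot M (fixSub P).toSubring (zetaC M) := goodRoot_fixSub hM
  have hHF : H ∈ FixR q M P := by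
    refine mem_LRing_FixR (O := ⊤) (hasse_mem_LRing haux hM ES.zetaC_goodRoot_top trivial) ?_
    obtain ⟨γ', -, h⟩ := hasLExp_hasse_inf haux (one_mem (Gamma0 q))
    rw [lexp_eq h, ← map_inv₀]
    exact expandL_serIn ((wSer_inv_serIn haux hAf 1).1.mul
      (expandL_serIn (wSer_inv_serIn haux hAf γ').2))
  have hpF : p ∈ FixR q M P := by
    refine mem_LRing_FixR (O := ⊤) (atkin_mem_LRing hM (O := ⊤) trivial
      (hasse_mem_LRing haux hM ES.zetaC_goodRoot_top trivial)) ?_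
    have h : HasLExp (q * M) (act 1 (atkin hM H)) (expandL q (lexp (q * M) (atkinMat hM) H)) := by
      refine (hasLExp_dilFun q (hasLExp_lexp hHF.1 (atkinMat hM))).congr_fun fun τ => ?_
      rw [ES.act_one, atkin_apply]
    rw [lexp_eq h]
    exact expandL_serIn (serIn_fix_of_isNorm haux hM (isNorm_atkinMat hM) hHF)
  have hpi : p⁻¹ = (fun _ => ((q : ℂ) ^ 2)⁻¹) * H := funext fun τ => by
    rw [Pi.inv_apply, hpe, Pi.mul_apply, inv_div, div_eq_mul_inv, mul_comm]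
  refine ⟨p, hp0, hpF, by
    rw [hpi]
    exact mul_mem (const_mem_FixR ((fixSub P).inv_mem (pow_mem (natCast_mem_fixSub q) 2))) hHF,
    fun t γ hγ => ⟨_, hasLExp_lexp hpF.1 γ, ?_⟩⟩
  obtain ⟨N, hN, -, C, -, -⟩ := exists_coef_dvd Φ hM one_ne_zero
  have hu := hasseL_unitInf haux hM C.root C.zeta C.cdvr.le hqm
  show HasAbs P _ (if t = .inf then P.abv (q : ℂ) ^ 2 else 1)
  split_ifs with ht
  · subst ht
    have hn : Normed P (lexp (q * M) γ H) :=
      ⟨fun k => C.cdvr.le (serIn_serAt γ (hasseL haux hM C.root C.zeta) k),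
        hu γ (isTyp_inf_iff.mp hγ)⟩
    obtain ⟨r, hr⟩ := exists_hasAbs_lexp haux hM (ES.hasCDVRs_ofEquiv Φ) hpF.1
      (fun h => hp0 I (congrFun h I)) γ
    have hmul : lexp (q * M) γ p * lexp (q * M) γ H = HahnSeries.C ((q : ℂ) ^ 2) := by
      rw [← lexp_mul hpF.1 hHF.1, show p * H = fun _ => (q : ℂ) ^ 2 from funext fun τ => by
        rw [Pi.mul_apply, hpe, div_mul_cancel₀ _ (hH0 τ)]]
      exact lexp_eq (HasLExp.const _)
    have h2 := hr.mul (hasAbs_of_normed hn)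
    rw [hmul, mul_one] at h2
    rwa [h2.unique (hasAbs_C (pow_ne_zero 2 hq0)), map_pow] at hr
  · refine hasAbs_of_normed ⟨fun k => C.cdvr.le
      (serIn_serAt γ (atkinL hM C.zeta (hasseL haux hM C.root C.zeta)) k), ?_⟩
    exact atkinL_unitZero hM C.zeta hu γ fun h => ht (isTyp_unique hγ (isTyp_inf_iff.mpr h))

end FermatAgent.BAD.Sq

end
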