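import Fermat.Agent.BAD.Sq.Elem.Content
import Fermat.Agent.BAD.Sq.Elem.Units

/-!
# Fixed characters with trivial transfers give roots from which they are recovered

The normalised form of a character fixed by inertia, divided by the standard
form and moved by units to absolute value one at all cusps, gives the element required by the root
criterion, and the character is recovered from it.
-/

set_option autoImplicit false

open UpperHalfPlane CongruenceSubgroup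
open scoped MatrixGroups ModularForm Manifold

noncomputable section

namespace FermatAgent.BAD.Sq

open FermatAgent.ES (BSub BRing SerIn HasLExp lexp lexp_eq hasLExp_lexp act zetaC AuxLevel CPlace
  IsTwist IsParChar parGroup galChar goodLevel_Gamma0 auxW vanishOrd)
open Toric (Normed HasContent)

variable {q L M m : ℕ} [hq : Fact q.Prime] [NeZero M] {P : CPlace q}

/-- **The quotient of the form by the standard form is a root.** -/
theorem rootFun_form (haux : AuxLevel M m) (hM : M.Coprime q) (hP : P.HasCDVRs) {n : ℕ} [NeZero n]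
    (hn : n.Coprime q) {χ : lamD q M →* ℂˣ} {u : ℍ → ℂ}
    (hu : IsTwist (lamD q M) ((2 * 2 : ℕ) : ℤ) χ u) (hu0 : u ≠ 0) (hχn : χ ^ n = 1)
    (hχ : IsParChar (lamD q M) χ)
    (hfix : SerIn (fixSub P).toSubring
      (HahnSeries.ofPowerSeries ℤ ℂ (qExpansion ((q * M : ℕ) : ℝ) u))) :
    RootFun q M P n χ (fun τ => u τ / auxW haux τ ^ 2) where
  pow_eq := hχn
  act_eq δ := by
    rw [act_div_auxW haux hu δ.2 (ES.gamma_le_of_dvd haux.dvd δ.2.2)]
    funext τ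
    rfl
  exp γ := by
    exact ⟨_, Toric.hasLExp_form_div_level haux (q := q) (i := 2) (f := u) (γ := γ)
      (ES.hasExp_slash_twist (M := q * M) gamma_qM_le_lamD hχ hu γ),
      hasContent_form_div haux hM hP hn gamma_qM_le_lamD hχn hχ hu hu0 γ⟩
  one := by
    refine ⟨_, Toric.hasLExp_form_div_level haux (q := q) (i := 2) (f := u) (γ := 1)
      (ES.hasExp_slash_twist (M := q * M) gamma_qM_le_lamD hχ hu 1), ?_⟩
    rw [SlashAction.slash_one, ← inv_pow, ← map_inv₀]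
    exact hfix.mul ((expandL_serIn (wSer_inv_serIn haux (goodRoot_fixSub hM) 1).2).pow 2)

theorem isTyp_inf_one : IsTyp q .inf (1 : SL(2, ℤ)) := (ent_one (q := q)).2.2.1

/-- The values at the cusps `∞` and `0` of a fixed function. -/
theorem exists_zpow_typ {Φ : ℂ ≃+* PadicAlgCl q} (haux : AuxLevel M m) (hM : M.Coprime q)
    {f : ℍ → ℂ} (hf : f ∈ FixR q M (CPlace.ofEquiv Φ)) {r : Typ → ℝ}
    (hr : HasTyp q M (CPlace.ofEquiv Φ) f r) :
    (∃ k : ℤ, r .inf = (CPlace.ofEquiv Φ).abv q ^ k) ∧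
      ∃ k : ℤ, r .zero = (CPlace.ofEquiv Φ).abv q ^ k := by
  have h : ∀ t γ, IsTyp q t γ → IsNorm q γ →
      ∃ k : ℤ, r t = (CPlace.ofEquiv Φ).abv q ^ k := fun t γ hγ hn => by
    obtain ⟨s, hs, hrs⟩ := hr t γ hγ
    exact exists_zpow_of_serIn Φ (lexp_eq hs ▸ serIn_fix_of_isNorm haux hM hn hf) hrs
  exact ⟨h _ 1 isTyp_inf_one (Or.inl (diagQ q).one_mem),
    h _ _ ((ZMod.intCast_zmod_eq_zero_iff_dvd _ _).mpr (atkinMat_dvd hM).1)
      (isNorm_atkinMat hM)⟩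

theorem mem_BRing_of_normed {f : ℍ → ℂ} (hf : f ∈ BSub (q * M)) {r : Typ → ℝ}
    (hr : HasTyp q M P f r) (h1 : ∀ t, r t = 1) : f ∈ BRing (q * M) P.ring :=
  ⟨hf, fun γ => by
    obtain ⟨t, ht⟩ := exists_isTyp (q := q) γ
    obtain ⟨s, hs, hrs⟩ := hr t γ ht
    rw [lexp_eq hs]
    exact hrs.serIn (h1 t).le⟩

omit [NeZero M] in
theorem pow_card_mem_Gamma (γ : SL(2, ℤ)) :
    γ ^ Nat.card (Matrix.SpecialLinearGroup (Fin 2) (ZMod M)) ∈ Gamma M := by
  show _ ∈ MonoidHom.ker _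
  rw [MonoidHom.mem_ker, map_pow]
  exact pow_card_eq_one'

omit [NeZero M] in
/-- The character is recovered from its restriction through the conjugation. -/
theorem pow_eq_one_of_conjD (hM : M.Coprime q) (hLM : L ∣ M) {G : Type*} [Group G]
    (φ : Gamma0 (L * q ^ 2) →* G) {e : ℕ} (h : ∀ δ, φ (conjD q L M hM hLM δ) ^ e = 1)
    (γ : Gamma0 (L * q ^ 2)) :
    φ γ ^ (Nat.card (Matrix.SpecialLinearGroup (Fin 2) (ZMod M)) * e) = 1 := by
  set K := Nat.card (Matrix.SpecialLinearGroup (Fin 2) (ZMod M))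
  set x : SL(2, ℤ) := (γ : SL(2, ℤ)) ^ K
  have hxM : x ∈ Gamma M := pow_card_mem_Gamma _
  have hx0 : x ∈ Gamma0 (L * q ^ 2) := pow_mem γ.2 K
  obtain ⟨a, b, c, d⟩ := Gamma_mem.mp hxM
  rw [Gamma0_mem, ZMod.intCast_zmod_eq_zero_iff_dvd] at hx0
  obtain ⟨z, hz⟩ := hx0
  have hdet := Matrix.SpecialLinearGroup.det_coe x
  rw [Matrix.det_fin_two, hz] at hdet
  push_cast at hdet
  let δ : SL(2, ℤ) := ⟨!![x 0 0, q * x 0 1; L * q * z, x 1 1], by
    rw [Matrix.det_fin_two_of]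
    linear_combination hdet⟩
  have hu : IsUnit (q : ZMod M) := (ZMod.isUnit_iff_coprime q M).mpr hM.symm
  have hδ : δ ∈ lamD q M := by
    refine ⟨⟨?_, ?_⟩, Gamma_mem.mpr ⟨a, ?_, ?_, d⟩⟩
    · show (((L : ℤ) * q * z : ℤ) : ZMod q) = 0
      simp
    · show (((q : ℤ) * x 0 1 : ℤ) : ZMod q) = 0
      simp
    · show (((q : ℤ) * x 0 1 : ℤ) : ZMod M) = 0
      rw [Int.cast_mul, b, mul_zero]
    · show (((L : ℤ) * q * z : ℤ) : ZMod M) = 0
      refine hu.mul_left_cancel ?_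
      rw [hz] at c
      push_cast at c ⊢
      rw [mul_zero]
      linear_combination c
  have e1 : conjD q L M hM hLM ⟨δ, hδ⟩ = γ ^ K := Subtype.ext (by
    rw [coe_conjD, SubmonoidClass.coe_pow]
    refine (eq_conjMat (δ := δ) (g := x) (dvd_of_mem_lamD hδ) rfl rfl ?_ rfl).symm
    show x 1 0 = (q : ℤ) * ((L : ℤ) * q * z)
    rw [hz]; push_cast; ring)
  have h1 := h ⟨δ, hδ⟩
  rw [e1, map_pow] at h1
  rw [pow_mul]
  exact h1

/-- The absolute values of a root at the three types of cusps have powers which are integral powers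
of that of `q`. -/
private theorem exists_typ_pow_zpow {Φ : ℂ ≃+* PadicAlgCl q} (haux : AuxLevel M m)
    (hM : M.Coprime q) (hqm : q ≠ m) {n : ℕ} (hn0 : n ≠ 0) {χ : lamD q M →* ℂˣ} {F : ℍ → ℂ}
    (hF : RootFun q M (CPlace.ofEquiv Φ) n χ F) (hkF : TrKills q M χ)
    (hkG : TrKills q M (χ.comp (conjN (isNorm_atkinMat hM)))) :
    ∃ r, HasTyp q M (CPlace.ofEquiv Φ) F r ∧
      ∀ t, ∃ k : ℤ, r t ^ ((q + 1) * (q - 1)) = (CPlace.ofEquiv Φ).abv q ^ k := by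
  set P := CPlace.ofEquiv Φ
  set g := atkinMat hM
  have hg : IsNorm q g := isNorm_atkinMat hM
  have g00 : ent q g 0 0 = 0 := (ZMod.intCast_zmod_eq_zero_iff_dvd _ _).mpr (atkinMat_dvd hM).1
  have g11 : ent q g 1 1 = 0 := (ZMod.intCast_zmod_eq_zero_iff_dvd _ _).mpr (atkinMat_dvd hM).2
  obtain ⟨r, hr⟩ := hF.exists_typ haux hM hqm hn0
  have hrpos : ∀ t, 0 < r t := hr.pos hM
  obtain ⟨s1, hs1, hs1fix⟩ := hF.one
  obtain ⟨i, hi⟩ : ∃ i : ℤ, r .inf = P.abv q ^ i := by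
    obtain ⟨s, hs, hrs⟩ := hr .inf 1 isTyp_inf_one
    rw [← (lexp_eq hs1).symm.trans (lexp_eq hs)] at hrs
    exact exists_zpow_of_serIn Φ hs1fix hrs
  -- the translate by the normalising matrix, divided by a coefficient
  have htypg : IsTyp q .zero g := g00
  obtain ⟨sg, hsg, hrg⟩ := hr .zero g htypg
  obtain ⟨i0, hi0⟩ := hrg.exists_coeff
  have hb : sg.coeff i0 ≠ 0 := fun h => (hrpos .zero).ne (by rw [← hi0, h, map_zero])
  have hsgn : SerIn (fixSub P).toSubring (sg ^ n) := by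
    have h := serIn_fix_of_isNorm haux hM hg hF.pow_mem
    rwa [lexp_eq ((hsg.pow n).congr_fun (g := act g (F ^ n)) fun τ => rfl)] at h
  have hG : RootFun q M P n (χ.comp (conjN hg)) ((fun _ => (sg.coeff i0)⁻¹) * act g F) :=
    hF.act_norm hg (inv_ne_zero hb) ⟨sg, hsg,
      RootFun.serIn_div_coeff hrg.hasContent hn0 hsgn hb⟩
  have hrG := (hr.act_antidiag g00 g11).const_mul (inv_ne_zero hb)
  obtain ⟨-, A, hA⟩ := exists_zpow_typ haux hM (hF.trProd_mem hM hkF) (hr.trProd hM)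
  obtain ⟨⟨c1, hc1⟩, c2, hc2⟩ := exists_zpow_typ haux hM (hG.trProd_mem hM hkG) (hrG.trProd hM)
  simp only [if_neg (show Typ.zero ≠ Typ.inf by decide), if_pos, Function.comp_apply, Typ.swap]
    at hA hc1 hc2
  set Q := P.abv (q : ℂ)
  have hQ : Q ≠ 0 := PSEMI.abv_p_pos.ne'
  set β := P.abv (sg.coeff i0)⁻¹
  have hβ : β ^ q ≠ 0 := pow_ne_zero _ (P.abv.pos (inv_ne_zero hb)).ne'
  set X := r .mid ^ (q - 1)
  -- `r 0 ^ (q + 1)` and `r mid ^ ((q + 1) (q - 1))`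
  have hz : r .zero ^ q * Q ^ c2 = Q ^ c1 * (Q ^ i * X) := by
    rw [← hc1, ← hc2, hi, mul_pow, mul_pow]
    have e : β ^ q = β * β ^ (q - 1) := by
      rw [← pow_succ', Nat.sub_add_cancel (Fact.out : q.Prime).one_le]
    rw [e]
    ring
  set e0 : ℤ := c1 + i + A - c2
  have hz' : r .zero ^ (q + 1) = Q ^ e0 := by
    rw [show e0 = c1 + i + A - c2 from rfl, zpow_sub₀ hQ, eq_div_iff (zpow_ne_zero _ hQ), pow_succ,
      mul_right_comm, hz, zpow_add₀ hQ, zpow_add₀ hQ, ← hA]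
    ring
  have hm' : X ^ (q + 1) = Q ^ (A * (q + 1 : ℕ) - e0) := by
    rw [zpow_sub₀ hQ, zpow_mul, zpow_natCast, ← hA, mul_pow, ← hz', mul_div_cancel_left₀]
    exact pow_ne_zero _ (hrpos .zero).ne'
  refine ⟨r, hr, fun t => ?_⟩
  cases t
  · exact ⟨i * ((q + 1) * (q - 1) : ℕ), by rw [hi, ← zpow_natCast, ← zpow_mul]⟩
  · exact ⟨_, by rw [mul_comm (q + 1) (q - 1), pow_mul]; exact hm'⟩
  · exact ⟨e0 * (q - 1 : ℕ), by rw [pow_mul, hz', ← zpow_natCast, ← zpow_mul]⟩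

/-- Multiplying a power of a root by the units and a power of `q` makes its absolute value one at
all cusps. -/
private theorem exists_rootFun_typ_one {Φ : ℂ ≃+* PadicAlgCl q} (haux : AuxLevel M m)
    (hM : M.Coprime q) (hqm : q ≠ m) {n : ℕ} {χ : lamD q M →* ℂˣ} {F : ℍ → ℂ}
    (hF : RootFun q M (CPlace.ofEquiv Φ) n χ F) {r : Typ → ℝ}
    (hr : HasTyp q M (CPlace.ofEquiv Φ) F r) {a : ℕ}
    (hk : ∀ t, ∃ k : ℤ, r t ^ a = (CPlace.ofEquiv Φ).abv q ^ k) :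
    ∃ h : ℍ → ℂ, RootFun q M (CPlace.ofEquiv Φ) n (χ ^ (2 * a)) h ∧
      HasTyp q M (CPlace.ofEquiv Φ) h 1 := by
  obtain ⟨Ki, hKi⟩ := hk .inf
  obtain ⟨Km, hKm⟩ := hk .mid
  obtain ⟨K0, hK0⟩ := hk .zero
  set P := CPlace.ofEquiv Φ
  have hP := ES.hasCDVRs_ofEquiv Φ
  set Q := P.abv (q : ℂ)
  have hQ : Q ≠ 0 := PSEMI.abv_p_pos.ne'
  set g := atkinMat hM
  have hg : IsNorm q g := isNorm_atkinMat hM
  have g00 : ent q g 0 0 = 0 := (ZMod.intCast_zmod_eq_zero_iff_dvd _ _).mpr (atkinMat_dvd hM).1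
  have g11 : ent q g 1 1 = 0 := (ZMod.intCast_zmod_eq_zero_iff_dvd _ _).mpr (atkinMat_dvd hM).2
  obtain ⟨p1, hp10, hp1, hp1i, hr1⟩ := exists_unit_inf (Φ := Φ) haux hM hqm
  have hp2 := act_mem_FixR haux hM hg hp1
  have hp2i : (act g p1)⁻¹ ∈ FixR q M P := act_mem_FixR haux hM hg hp1i
  have hr2 := hr1.act_antidiag g00 g11
  obtain ⟨hu1, hru1⟩ := zpow_unit haux hM hP hp10 hp1 hp1i hr1 (Km - Ki)
  obtain ⟨hu2, hru2⟩ := zpow_unit haux hM hP (p := act g p1) (fun τ => hp10 _) hp2 hp2i hr2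
    (Km - K0)
  have hqz : (q : ℂ) ^ (-2 * Km) ≠ 0 :=
    zpow_ne_zero _ (Nat.cast_ne_zero.mpr (Fact.out : q.Prime).ne_zero)
  have hcq := const_mem_FixR (q := q) (M := M) (P := CPlace.ofEquiv Φ) (c := (q : ℂ) ^ (-2 * Km))
    (zpow_mem (natCast_mem_fixSub q) _)
  set h : ℍ → ℂ := (fun _ => (q : ℂ) ^ (-2 * Km)) * (F ^ a) ^ 2 * p1 ^ (Km - Ki) *
    (act g p1) ^ (Km - K0)
  have hrh0 := ((((hr.pow a).pow 2).const_mul hqz).mul hru1).mul hru2
  have hrh : HasTyp q M P h 1 := by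
    intro t γ hγ
    obtain ⟨s, hs, hrs⟩ := hrh0 t γ hγ
    refine ⟨s, hs, ?_⟩
    convert hrs using 1
    simp only [Pi.mul_apply, Pi.pow_apply, Pi.one_apply, Function.comp_apply, map_zpow₀]
    cases t
    · simp only [hKi, Typ.swap, if_neg (show Typ.zero ≠ Typ.inf by decide), if_pos, one_zpow,
        mul_one]
      rw [← zpow_natCast, ← zpow_natCast _ 2, ← zpow_mul, ← zpow_mul, ← zpow_add₀ hQ,
        ← zpow_add₀ hQ, show -2 * Km + Ki * ((2 : ℕ) : ℤ) + ((2 : ℕ) : ℤ) * (Km - Ki) = 0 by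
          push_cast; ring, zpow_zero]
    · simp only [hKm, Typ.swap, if_neg (show Typ.mid ≠ Typ.inf by decide), one_zpow, mul_one]
      rw [← zpow_natCast, ← zpow_mul, ← zpow_add₀ hQ,
        show -2 * Km + Km * ((2 : ℕ) : ℤ) = 0 by push_cast; ring, zpow_zero]
    · simp only [hK0, Typ.swap, if_neg (show Typ.zero ≠ Typ.inf by decide), if_pos, one_zpow,
        mul_one]
      rw [← zpow_natCast, ← zpow_natCast _ 2, ← zpow_mul, ← zpow_mul, ← zpow_add₀ hQ,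
        ← zpow_add₀ hQ, show -2 * Km + K0 * ((2 : ℕ) : ℤ) + ((2 : ℕ) : ℤ) * (Km - K0) = 0 by
          push_cast; ring, zpow_zero]
  have hh : RootFun q M P n (χ ^ (2 * a)) h := by
    have h1 := (((RootFun.of_fixR (n := n) hcq (hasTyp_const hqz)).mul
      ((hF.pow a).pow 2)).mul (RootFun.of_fixR hu1 hru1)).mul (RootFun.of_fixR hu2 hru2)
    rwa [show (1 * (χ ^ a) ^ 2 * 1 * 1 : lamD q M →* ℂˣ) = χ ^ (2 * a) from
      MonoidHom.ext fun δ => by simp [← pow_mul, mul_comm]] at h1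
  exact ⟨h, hh, hrh⟩

/-- The translate by the normalising matrix of a root of absolute value one is a root. -/
private theorem rootFun_act_atkinMat {Φ : ℂ ≃+* PadicAlgCl q} (haux : AuxLevel M m)
    (hM : M.Coprime q) {n : ℕ} [NeZero n] (hn : n.Coprime q) {χ : lamD q M →* ℂˣ} {h : ℍ → ℂ}
    (hh : RootFun q M (CPlace.ofEquiv Φ) n χ h) (hrh : HasTyp q M (CPlace.ofEquiv Φ) h 1) :
    RootFun q M (CPlace.ofEquiv Φ) n (χ.comp (conjN (isNorm_atkinMat hM)))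
      (act (atkinMat hM) h) := by
  set g := atkinMat hM
  have hg : IsNorm q g := isNorm_atkinMat hM
  obtain ⟨sh, hsh, hrsh⟩ :=
    hrh .zero g ((ZMod.intCast_zmod_eq_zero_iff_dvd _ _).mpr (atkinMat_dvd hM).1)
  have h1 := hh.act_norm hg one_ne_zero ⟨sh, hsh, by
    rw [map_one, one_mul]
    refine RootFun.serIn_of_normed hrsh.normed (NeZero.ne n) hn ?_
    have h2 := serIn_fix_of_isNorm haux hM hg hh.pow_mem
    rwa [lexp_eq ((hsh.pow n).congr_fun (g := act g (h ^ n)) fun τ => rfl)] at h2⟩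
  rwa [show (fun _ : ℍ => (1 : ℂ)) * act g h = act g h from funext fun τ => one_mul _] at h1

/-- A root of absolute value one whose characters have trivial transfers is an `Elt`, over all large
coefficient data. -/
private theorem exists_elt {Φ : ℂ ≃+* PadicAlgCl q} (haux : AuxLevel M m) (hM : M.Coprime q)
    {n : ℕ} [NeZero n] (hn : n.Coprime q) {χ : lamD q M →* ℂˣ} {h : ℍ → ℂ}
    (hh : RootFun q M (CPlace.ofEquiv Φ) n χ h) (hrh : HasTyp q M (CPlace.ofEquiv Φ) h 1)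
    (hkh : TrKills q M χ) (hkgh : TrKills q M (χ.comp (conjN (isNorm_atkinMat hM)))) :
    ∃ E : Elt (CPlace.ofEquiv Φ) hM n, E.h = h ∧ ∃ N₀ : ℕ, N₀ ≠ 0 ∧
      ∀ N : ℕ, N₀ ∣ N → ∀ [NeZero N], ∀ C : Coef M (CPlace.ofEquiv Φ),
        C.O = lRing Φ N → C.O0 = uRing Φ N →
          (∀ a, (C.D a).σ = conjC Φ (fixG Φ a)) → E.Over C := by
  set P := CPlace.ofEquiv Φ
  set g := atkinMat hM
  have g00 : ent q g 0 0 = 0 := (ZMod.intCast_zmod_eq_zero_iff_dvd _ _).mpr (atkinMat_dvd hM).1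
  have g11 : ent q g 1 1 = 0 := (ZMod.intCast_zmod_eq_zero_iff_dvd _ _).mpr (atkinMat_dvd hM).2
  have hgh := rootFun_act_atkinMat haux hM hn hh hrh
  have hX0 := hh.pow_mem
  have hX1 := hh.trProd_mem hM hkh
  have hX2 := hgh.trProd_mem hM hkgh
  have hb0 : h ^ n ∈ BRing (q * M) P.ring :=
    mem_BRing_of_normed hX0.1 (hrh.pow n) fun t => by simp
  have hb1 : trProd q M h ∈ BRing (q * M) P.ring :=
    mem_BRing_of_normed hX1.1 (hrh.trProd hM) fun t => by simp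
  have hb2 : trProd q M (act g h) ∈ BRing (q * M) P.ring :=
    mem_BRing_of_normed hX2.1 ((hrh.act_antidiag g00 g11).trProd hM) fun t => by simp
  obtain ⟨N0, hN0, hmem0⟩ := exists_mem_lRing haux hM Φ hX0 hb0
  obtain ⟨N1, hN1, hmem1⟩ := exists_mem_lRing haux hM Φ hX1 hb1
  obtain ⟨N2, hN2, hmem2⟩ := exists_mem_lRing haux hM Φ hX2 hb2
  have hrh' : ∀ γ, ∃ s, HasLExp (q * M) (act γ h) s ∧ Normed P s := fun γ => by
    obtain ⟨t, ht⟩ := exists_isTyp (q := q) γ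
    obtain ⟨s, hs, hrs⟩ := hrh t γ ht
    exact ⟨s, hs, hrs.normed⟩
  choose ser hserh hnorm using hrh'
  exact ⟨⟨h, ser, hserh, hnorm, ⟨hb0, hX0.2.1⟩,
    fun σ hσ => serIn_fixSub_iff.mp hX0.2.2 σ hσ,
    fun γ hγ => hh.trProd_inv hM hkh hγ, fun γ hγ => hgh.trProd_inv hM hkgh hγ⟩, rfl,
    N0 * N1 * N2, mul_ne_zero (mul_ne_zero hN0 hN1) hN2, fun N hN _ C hC hC0 _ =>
      ⟨mem_A0_of_fix hC hC0 hX0 (hmem0 N (dvd_trans ((dvd_mul_right N0 N1).mul_right N2) hN)),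
        mem_L0_of_fix hC hC0 hX1 (hmem1 N (dvd_trans ((dvd_mul_left N1 N0).mul_right N2) hN))
          fun γ hγ => hh.trProd_inv hM hkh hγ,
        mem_L0_of_fix hC hC0 hX2 (hmem2 N (dvd_trans (dvd_mul_left N2 (N0 * N1)) hN))
          fun γ hγ => hgh.trProd_inv hM hkgh hγ⟩⟩

omit hq [NeZero M] in
/-- If a power of a nonzero root is invariant, that power of its character is trivial. -/
private theorem rootFun_char_pow_eq_one {n : ℕ} {χ : lamD q M →* ℂˣ} {h : ℍ → ℂ}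
    (hh : RootFun q M P n χ h) (hne : h ≠ 0) {c : ℕ}
    (hc : ∀ γ ∈ lamD q M, act γ (h ^ c) = h ^ c) (δ : lamD q M) : χ δ ^ c = 1 := by
  obtain ⟨τ, hτ⟩ := Function.ne_iff.mp hne
  have h1 := congrFun ((hh.pow c).act_eq δ) τ
  rw [hc _ δ.2] at h1
  refine Units.ext ?_
  rw [Units.val_one, ← MonoidHom.pow_apply]
  exact mul_right_cancel₀ (pow_ne_zero c hτ) (by rw [one_mul]; exact h1.symm)

/-- **Fixed characters with trivial transfers give roots from which they are recovered.** -/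
theorem eltExists (q M : ℕ) [Fact q.Prime] [NeZero M] :
    ∀ (L m : ℕ) [NeZero L], L ∣ M → AuxLevel M m → ∀ (hM : M.Coprime q), q ≠ m →
      ∃ a : ℕ, a ≠ 0 ∧ ∀ (Φ : ℂ ≃+* PadicAlgCl q) (n : ℕ) [NeZero n], n.Coprime q →
        ∀ φ : parGroup (Gamma0 (L * q ^ 2)) n,
          KillsTransfer (L * q ^ 2) (L * q) (lowRep L q) φ.1 →
          KillsTransfer (L * q ^ 2) (L * q) (upRep q) φ.1 →
          (∀ s ∈ (CPlace.ofEquiv Φ).algVal.inertiaSubgroupIn ℚ,
            galChar (goodLevel_Gamma0 (L * q ^ 2)) n s φ = φ) →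
          ∃ E : Elt (CPlace.ofEquiv Φ) hM n,
            (∃ N₀ : ℕ, N₀ ≠ 0 ∧ ∀ N : ℕ, N₀ ∣ N → ∀ [NeZero N],
              ∀ C : Coef M (CPlace.ofEquiv Φ), C.O = lRing Φ N → C.O0 = uRing Φ N →
                (∀ a, (C.D a).σ = conjC Φ (fixG Φ a)) → E.Over C) ∧
            ∀ c : ℕ, (∀ γ ∈ lamD q M, act γ (E.h ^ c) = E.h ^ c) → φ ^ (a * c) = 1 := by
  intro L m _ hLM haux hM hqm
  have : NeZero q := ⟨(Fact.out : q.Prime).ne_zero⟩
  set K := Nat.card (Matrix.SpecialLinearGroup (Fin 2) (ZMod M))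
  have hK : K ≠ 0 := Nat.card_pos.ne'
  have hq1 : q - 1 ≠ 0 := (Nat.sub_pos_of_lt (Fact.out : q.Prime).one_lt).ne'
  set a := (q + 1) * (q - 1)
  refine ⟨K * (2 * a), mul_ne_zero hK (mul_ne_zero two_ne_zero
    (mul_ne_zero (Nat.succ_ne_zero q) hq1)), fun Φ n _ hn φ hlow hup hfix => ?_⟩
  set P := CPlace.ofEquiv Φ
  obtain ⟨u, χ, hu, hu0, hχn, hχp, hχ, hser⟩ := exists_form hM hLM φ P hfix
  have hF := rootFun_form haux hM (ES.hasCDVRs_ofEquiv Φ) hn hu hu0 hχn hχp hser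
  have hχe : χ = φ.1.comp (conjD q L M hM hLM) := MonoidHom.ext hχ
  have hkF : TrKills q M χ := hχe ▸ trKills_beta hM hLM hup
  have : NeZero L := ⟨fun h => NeZero.ne M (by simpa [h] using hLM)⟩
  have hkG : TrKills q M (χ.comp (conjN (isNorm_atkinMat hM))) :=
    hχe ▸ trKills_alpha hM hLM hlow
  obtain ⟨r, hr, hk⟩ := exists_typ_pow_zpow haux hM hqm (NeZero.ne n) hF hkF hkG
  obtain ⟨h, hh, hrh⟩ := exists_rootFun_typ_one haux hM hqm hF hr hk
  have hkgh : TrKills q M ((χ ^ (2 * a)).comp (conjN (isNorm_atkinMat hM))) := by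
    rw [show (χ ^ (2 * a)).comp (conjN (isNorm_atkinMat hM)) =
      (χ.comp (conjN (isNorm_atkinMat hM))) ^ (2 * a) from MonoidHom.ext fun δ => by simp]
    exact hkG.pow _
  obtain ⟨E, rfl, hE⟩ := exists_elt haux hM hn hh hrh (hkF.pow _) hkgh
  refine ⟨E, hE, fun c hc => ?_⟩
  -- recovery
  refine Subtype.ext (MonoidHom.ext fun γ => ?_)
  show (φ.1 ^ (K * (2 * a) * c)) γ = 1
  rw [MonoidHom.pow_apply, mul_assoc]
  refine pow_eq_one_of_conjD hM hLM φ.1 (fun δ => ?_) γ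
  rw [← hχ δ, pow_mul]
  exact rootFun_char_pow_eq_one hh (hrh.ne_zero hM) hc δ

end FermatAgent.BAD.Sq

end
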