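import Fermat.Agent.BAD.Toric.InertFix
import Fermat.Agent.BAD.Toric.SerFactor

/-!
# Absolute values of expansions and fixed numbers

`HasAbs` records an attained maximum of the absolute values of the coefficients; it is
multiplicative, and series with content have one. `fixSub` is the field fixed by the automorphisms
congruent to the identity.
-/

set_option autoImplicit false

open UpperHalfPlane CongruenceSubgroup
open scoped MatrixGroups

noncomputable section

namespace FermatAgent.BAD.Sq

open FermatAgent.ES (CPlace SerIn)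
open Toric (Normed HasContent IsSmall coeff_C_mul')

variable {q : ℕ} (P : CPlace q)

/-- The largest absolute value of a coefficient is `r`, and it is attained. -/
def HasAbs (s : LaurentSeries ℂ) (r : ℝ) : Prop :=
  ∃ (a : ℂ) (u : LaurentSeries ℂ), a ≠ 0 ∧ Normed P u ∧ P.abv a = r ∧ s = HahnSeries.C a * u

/-- The numbers fixed by the automorphisms congruent to the identity. -/
def fixSub : Subfield ℂ where
  carrier := {x | ∀ σ : ℂ ≃+* ℂ, IsSmall P σ → σ x = x}
  mul_mem' {x y} hx hy σ hσ := by rw [map_mul, hx σ hσ, hy σ hσ]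
  one_mem' σ _ := map_one σ
  add_mem' {x y} hx hy σ hσ := by rw [map_add, hx σ hσ, hy σ hσ]
  zero_mem' σ _ := map_zero σ
  neg_mem' {x} hx σ hσ := by rw [map_neg, hx σ hσ]
  inv_mem' x hx σ hσ := by rw [map_inv₀, hx σ hσ]

variable {P} {s t : LaurentSeries ℂ} {r r' : ℝ}

/-- A normed series has absolute value one. -/
theorem hasAbs_of_normed (h : Normed P s) : HasAbs P s 1 :=
  ⟨1, s, one_ne_zero, h, map_one _, by rw [map_one, one_mul]⟩

/-- The absolute value is positive. -/
theorem HasAbs.pos (h : HasAbs P s r) : 0 < r := by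
  obtain ⟨a, u, ha, -, rfl, -⟩ := h
  exact P.abv.pos ha

/-- A series with an absolute value is not zero. -/
theorem HasAbs.ne_zero (h : HasAbs P s r) : s ≠ 0 := by
  obtain ⟨a, u, ha, hu, -, rfl⟩ := h
  exact mul_ne_zero ((map_ne_zero_iff _ HahnSeries.C_injective).mpr ha) hu.ne_zero

/-- The coefficients are bounded by the absolute value. -/
theorem HasAbs.abv_coeff_le (h : HasAbs P s r) (i : ℤ) : P.abv (s.coeff i) ≤ r := by
  obtain ⟨a, u, -, hu, rfl, rfl⟩ := h
  rw [coeff_C_mul', map_mul]
  exact mul_le_of_le_one_right (P.abv.nonneg _) (hu.1 i)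

/-- The absolute value bounds the series. -/
theorem HasAbs.serLE (h : HasAbs P s r) {c : ℝ} (hc : r ≤ c) : P.SerLE c s := fun i =>
  (h.abv_coeff_le i).trans hc

/-- A series of absolute value at most one is integral. -/
theorem HasAbs.serIn (h : HasAbs P s r) (hr : r ≤ 1) : SerIn P.ring s := h.serLE hr

/-- The absolute value is attained. -/
theorem HasAbs.exists_coeff (h : HasAbs P s r) : ∃ i, P.abv (s.coeff i) = r := by
  obtain ⟨a, u, -, ⟨-, i, hi⟩, rfl, rfl⟩ := h
  exact ⟨i, by rw [coeff_C_mul', map_mul, hi, mul_one]⟩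

/-- The absolute value is unique. -/
theorem HasAbs.unique (h : HasAbs P s r) (h' : HasAbs P s r') : r = r' := by
  obtain ⟨i, hi⟩ := h.exists_coeff
  obtain ⟨j, hj⟩ := h'.exists_coeff
  exact le_antisymm (hi ▸ h'.abv_coeff_le i) (hj ▸ h.abv_coeff_le j)

theorem HasAbs.le_of_serLE (h : HasAbs P s r) {c : ℝ} (hs : P.SerLE c s) : r ≤ c := by
  obtain ⟨i, rfl⟩ := h.exists_coeff
  exact hs i

/-- An integral series has absolute value at most one. -/
theorem HasAbs.le_one (h : HasAbs P s r) (hs : SerIn P.ring s) : r ≤ 1 :=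
  h.le_of_serLE hs

/-- A series is small exactly when its absolute value is below one. -/
theorem HasAbs.serLT_iff (h : HasAbs P s r) : P.SerLT s ↔ r < 1 := by
  refine ⟨fun hs => ?_, fun hr i => (h.abv_coeff_le i).trans_lt hr⟩
  obtain ⟨i, rfl⟩ := h.exists_coeff
  exact hs i

/-- The absolute value is multiplicative. -/
theorem HasAbs.mul (h : HasAbs P s r) (h' : HasAbs P t r') : HasAbs P (s * t) (r * r') := by
  obtain ⟨a, u, ha, hu, rfl, rfl⟩ := h
  obtain ⟨b, v, hb, hv, rfl, rfl⟩ := h'
  exact ⟨a * b, u * v, mul_ne_zero ha hb, hu.mul hv, map_mul _ _ _,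
    by rw [map_mul, mul_mul_mul_comm]⟩

/-- The absolute value of a power. -/
theorem HasAbs.pow (h : HasAbs P s r) (k : ℕ) : HasAbs P (s ^ k) (r ^ k) := by
  obtain ⟨a, u, ha, hu, rfl, rfl⟩ := h
  exact ⟨a ^ k, u ^ k, pow_ne_zero k ha, hu.pow k, map_pow _ _ _, by rw [map_pow, mul_pow]⟩

/-- The absolute value of a constant multiple. -/
theorem HasAbs.C_mul (h : HasAbs P s r) {c : ℂ} (hc : c ≠ 0) :
    HasAbs P (HahnSeries.C c * s) (P.abv c * r) := by
  obtain ⟨a, u, ha, hu, rfl, rfl⟩ := h
  exact ⟨c * a, u, mul_ne_zero hc ha, hu, map_mul _ _ _, by rw [map_mul, mul_assoc]⟩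

/-- A series of absolute value one is normed. -/
theorem HasAbs.normed (h : HasAbs P s 1) : Normed P s := by
  obtain ⟨a, u, -, hu, ha, rfl⟩ := h
  exact hu.C_mul ha

/-- The absolute value of a constant. -/
theorem hasAbs_C {c : ℂ} (hc : c ≠ 0) : HasAbs P (HahnSeries.C c) (P.abv c) :=
  ⟨c, 1, hc, ⟨SerIn.one, 0, by simp⟩, rfl, by rw [mul_one]⟩

/-- The series `1` has absolute value one. -/
theorem hasAbs_one : HasAbs P (1 : LaurentSeries ℂ) 1 :=
  hasAbs_of_normed ⟨SerIn.one, 0, by simp⟩

/-- The absolute value of a finite product. -/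
theorem HasAbs.prod {ι : Type*} (u : Finset ι) {f : ι → LaurentSeries ℂ} {c : ι → ℝ}
    (h : ∀ i ∈ u, HasAbs P (f i) (c i)) : HasAbs P (∏ i ∈ u, f i) (∏ i ∈ u, c i) := by
  classical
  induction u using Finset.induction_on with
  | empty => simpa using hasAbs_one
  | insert i u hi ih =>
    rw [Finset.prod_insert hi, Finset.prod_insert hi]
    exact (h i (Finset.mem_insert_self i u)).mul
      (ih fun j hj => h j (Finset.mem_insert_of_mem hj))

/-- A series with content has an absolute value. -/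
theorem exists_hasAbs (h : HasContent P s) : ∃ r, HasAbs P s r := by
  obtain ⟨a, ha, hu⟩ := h
  refine ⟨P.abv a⁻¹, a⁻¹, _, inv_ne_zero ha, hu, rfl, ?_⟩
  rw [← mul_assoc, ← map_mul, inv_mul_cancel₀ ha, map_one, one_mul]

/-- A series with an absolute value has content. -/
theorem HasAbs.hasContent (h : HasAbs P s r) : HasContent P s := by
  obtain ⟨a, u, ha, hu, -, rfl⟩ := h
  exact hu.hasContent.C_mul ha

/-- The absolute value of an inverse with content. -/
theorem HasAbs.inv_of_hasContent (h : HasAbs P s r) (hs : HasContent P s⁻¹) :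
    HasAbs P s⁻¹ r⁻¹ := by
  obtain ⟨c, hc⟩ := exists_hasAbs hs
  have h1 := (h.mul hc).unique (r' := 1) (by rw [mul_inv_cancel₀ h.ne_zero]; exact hasAbs_one)
  rwa [← eq_inv_of_mul_eq_one_right h1]

/-! ### Expansions with fixed coefficients -/

/-- A series has fixed coefficients if and only if the small automorphisms fix it. -/
theorem serIn_fixSub_iff :
    SerIn (fixSub P).toSubring s ↔
      ∀ σ : ℂ ≃+* ℂ, IsSmall P σ → ES.mapSer (σ : ℂ →+* ℂ) s = s := by
  refine ⟨fun h σ hσ => HahnSeries.ext (funext fun i => ?_), fun h i σ hσ => ?_⟩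
  · rw [ES.coeff_mapSer]; exact h i σ hσ
  · have h1 := congrArg (fun x => HahnSeries.coeff x i) (h σ hσ)
    simpa only [ES.coeff_mapSer, RingEquiv.coe_toRingHom] using h1

/-- The fixed field has good roots of level `M` prime to `q`. -/
theorem goodRoot_fixSub {M : ℕ} [NeZero M] [Fact q.Prime] (hM : M.Coprime q) :
    ES.GoodRoot M (fixSub P).toSubring (ES.zetaC M) := by
  have hprim := ES.zetaC_isPrimitiveRoot M
  have hmem : ES.zetaC M ∈ fixSub P := fun σ hσ =>
    (Toric.inertFixed_of_pow_eq_one (P := P) (NeZero.ne M)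
      (fun h => (Fact.out : q.Prime).one_lt.ne' (Nat.dvd_one.mp (hM ▸ Nat.dvd_gcd h dvd_rfl)))
      hprim.pow_eq_one).2 σ hσ
  refine ⟨hprim, hmem, fun i hi => ⟨sub_ne_zero.mpr fun h => hi ?_, ?_, ?_⟩⟩
  · exact (hprim.pow_eq_one_iff_dvd i).mp h.symm
  · exact (fixSub P).sub_mem (fixSub P).one_mem (pow_mem hmem i)
  · exact (fixSub P).inv_mem ((fixSub P).sub_mem (fixSub P).one_mem (pow_mem hmem i))

/-- Integers are fixed. -/
theorem natCast_mem_fixSub (k : ℕ) : (k : ℂ) ∈ fixSub P := fun σ _ => map_natCast σ k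

end FermatAgent.BAD.Sq

end
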