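import Fermat.Agent.BAD.Sq.Elem.Abs
import Fermat.Agent.BAD.Toric.Content
import Fermat.Agent.BAD.Diamond.Inv

/-!
# Contents and bounds of functions of level `q M`

A nonzero function of level `q M` has an absolute value at every cusp, with values in a discrete
group, and becomes integral after multiplication by a power of `q`.
-/

set_option autoImplicit false

open UpperHalfPlane CongruenceSubgroup
open scoped MatrixGroups

noncomputable section

namespace FermatAgent.BAD.Sq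

open FermatAgent.ES (BSub BRing SerIn HasLExp lexp lexp_eq hasLExp_lexp act zetaC AuxLevel CPlace
  modMat)
open Toric (Normed HasContent)

variable {q M m : ℕ} [hq : Fact q.Prime] [NeZero M] {P : CPlace q}

/-- The expansion of a product. -/
theorem lexp_mul {f g : ℍ → ℂ} (hf : f ∈ BSub (q * M)) (hg : g ∈ BSub (q * M)) (γ : SL(2, ℤ)) :
    lexp (q * M) γ (f * g) = lexp (q * M) γ f * lexp (q * M) γ g :=
  lexp_eq ((hasLExp_lexp hf γ).mul (hasLExp_lexp hg γ))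

omit hq [NeZero M] in
/-- Constants are functions of level `q M`. -/
theorem const_mem_BSub (c : ℂ) : (fun _ : ℍ => c) ∈ BSub (q * M) :=
  (BSub (q * M)).algebraMap_mem c

/-- The expansion of a constant multiple. -/
theorem lexp_const_mul {f : ℍ → ℂ} (hf : f ∈ BSub (q * M)) (c : ℂ) (γ : SL(2, ℤ)) :
    lexp (q * M) γ ((fun _ => c) * f) = HahnSeries.C c * lexp (q * M) γ f := by
  rw [lexp_mul (const_mem_BSub c) hf, lexp_eq (γ := γ) (f := fun _ : ℍ => c) (HasLExp.const c)]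

omit hq [NeZero M] in
theorem lexp_eq_of_modMat {f : ℍ → ℂ} (hf : f ∈ BSub (q * M)) {γ γ' : SL(2, ℤ)}
    (h : modMat (q * M) γ = modMat (q * M) γ') : lexp (q * M) γ f = lexp (q * M) γ' f := by
  have hmem : γ * γ'⁻¹ ∈ Gamma (q * M) := ES.mem_Gamma_of_modMat (by
    rw [ES.modMat_mul, h, ← ES.modMat_mul, mul_inv_cancel, ES.modMat_one])
  conv_lhs => rw [← inv_mul_cancel_right γ γ', ← ES.lexp_act, hf.1 _ hmem]

variable (haux : AuxLevel M m) (hM : M.Coprime q) (hP : P.HasCDVRs)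
include haux hM hP

/-- **Nonzero functions have contents, whose value group is discrete.** -/
theorem exists_abs {f : ℍ → ℂ} (hf : f ∈ BSub (q * M)) (hf0 : f ≠ 0) :
    ∃ e : ℕ, e ≠ 0 ∧ ∀ γ, ∃ (r : ℝ) (k : ℤ),
      HasAbs P (lexp (q * M) γ f) r ∧ r ^ e = P.abv q ^ k := by
  classical
  obtain ⟨c, hc0, hcP, hc⟩ := exists_const_mul_sepN (P := P) haux hM hf
  set N : ℍ → ℂ := (fun _ => c) * sepN q haux
  have hN : N ∈ LRing q M P.ring := mul_mem (const_mem_LRing hcP) (mem_LRing_of_BRing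
    (sepN_mem_BRing haux (P.goodRoot hM) (goodRoot_zeta (P := P))))
  have hN0 : ∀ τ, N τ ≠ 0 := fun τ => mul_ne_zero hc0 (sepN_ne_zero haux τ)
  obtain ⟨S1, hS1, hS1O⟩ := exists_finset_mem_LRing haux hM hN
  obtain ⟨S2, hS2, hS2O⟩ := exists_finset_mem_BRing_level haux hM hc
  obtain ⟨O, hO', hA, hζ, hsub⟩ := Toric.exists_coeffRing (M := M) hM hP
    (S := ↑(S1 ∪ S2)) (S1 ∪ S2).finite_toSet (by
      simp only [Finset.coe_union]; exact Set.union_subset hS1 hS2)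
  simp only [Finset.coe_union, Set.union_subset_iff] at hsub
  have := hO'.dvr
  obtain ⟨ϖ, hϖ⟩ := IsDiscreteValuationRing.exists_irreducible O
  set N' : LRing q M O := ⟨N, hS1O O hO' hA hζ hsub.1⟩
  have hg := hS2O O hO' hA hζ hsub.2
  have hg0 : N * f ≠ 0 := fun h => hf0 (funext fun τ =>
    (mul_eq_zero.mp (congrFun h τ)).resolve_left (hN0 τ))
  have hϖ0 : (ϖ : ℂ) ≠ 0 := fun h => hϖ.ne_zero (Subtype.ext h)
  obtain ⟨e, u, he⟩ := IsDiscreteValuationRing.eq_unit_mul_pow_irreducible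
    (show (q : O) ≠ 0 from fun h => natCast_q_ne_zero (q := q) (O := O) (by rw [h]; rfl)) hϖ
  have hqe : P.abv (q : ℂ) = P.abv (ϖ : ℂ) ^ e := by
    have h1 := congrArg (fun z : O => P.abv (z : ℂ)) he
    simp only [Subring.coe_mul, SubmonoidClass.coe_pow, map_mul, map_pow,
      (hO'.isUnit_iff _).mp u.isUnit, one_mul] at h1
    simpa using h1
  have he0 : e ≠ 0 := by
    rintro rfl
    rw [pow_zero] at hqe
    exact P.lt_one.ne hqe
  refine ⟨e, he0, fun γ => ?_⟩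
  have hpart : ∀ {g : ℍ → ℂ}, g ∈ BRing (q * M) O → g ≠ 0 →
      ∃ j : ℕ, HasAbs P (lexp (q * M) γ g) (P.abv (ϖ : ℂ) ^ j) := by
    intro g hg hg0
    obtain ⟨j, u, huO, hu, hs⟩ := exists_unit_part hO' hϖ (hg.2 γ) (serAt_ne_zero hg.1 hg0 γ)
    exact ⟨j, (ϖ : ℂ) ^ j, u, pow_ne_zero j hϖ0, ⟨fun k => hO'.le (huO k), hu⟩, map_pow _ _ _, hs⟩
  obtain ⟨j2, h2⟩ := hpart hg hg0
  obtain ⟨j1, h1⟩ := hpart (g := N) N'.2.1 fun h => hN0 UpperHalfPlane.I (congrFun h _)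
  have h1i := h1.inv_of_hasContent
    (Toric.hasContent_inv_of_ne_zero haux hA hO' (f := N') hN0 γ)
  refine ⟨P.abv (ϖ : ℂ) ^ j2 * (P.abv (ϖ : ℂ) ^ j1)⁻¹, (j2 : ℤ) - j1, ?_, ?_⟩
  · have h := h2.mul h1i
    rwa [lexp_mul N'.2.1.1 hf, mul_right_comm, mul_inv_cancel₀ h1.ne_zero, one_mul] at h
  · rw [mul_pow, inv_pow, ← pow_mul, ← pow_mul, zpow_sub₀ PSEMI.abv_p_pos.ne', zpow_natCast,
      zpow_natCast, hqe, ← pow_mul, ← pow_mul, mul_comm j1 e, mul_comm j2 e, div_eq_mul_inv]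

/-- A nonzero function has an absolute value at every cusp. -/
theorem exists_hasAbs_lexp {f : ℍ → ℂ} (hf : f ∈ BSub (q * M)) (hf0 : f ≠ 0) (γ : SL(2, ℤ)) :
    ∃ r, HasAbs P (lexp (q * M) γ f) r := by
  obtain ⟨e, -, h⟩ := exists_abs haux hM hP hf hf0
  obtain ⟨r, -, hr, -⟩ := h γ
  exact ⟨r, hr⟩

/-- **A function is bounded at all cusps.** -/
theorem exists_pow_mul_mem {f : ℍ → ℂ} (hf : f ∈ BSub (q * M)) :
    ∃ j : ℕ, (fun _ => (q : ℂ) ^ j) * f ∈ BRing (q * M) P.ring := by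
  classical
  rcases eq_or_ne f 0 with rfl | hf0
  · exact ⟨0, by rw [mul_zero]; exact zero_mem _⟩
  choose r hr using exists_hasAbs_lexp haux hM hP hf hf0
  have hfin : (Set.range fun γ : SL(2, ℤ) => modMat (q * M) γ).Finite := Set.toFinite _
  set A := hfin.toFinset
  have hrep : ∀ x : A, ∃ γ : SL(2, ℤ), modMat (q * M) γ = (x : Matrix (Fin 2) (Fin 2) _) :=
    fun x => hfin.mem_toFinset.mp x.2
  choose rep hrep using hrep
  have hj : ∀ x : A, ∃ j : ℕ, P.abv (q : ℂ) ^ j * r (rep x) ≤ 1 := fun x => by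
    obtain ⟨j, hj⟩ := exists_pow_lt_of_lt_one (inv_pos.mpr (hr (rep x)).pos) P.lt_one
    exact ⟨j, (le_mul_inv_iff₀ (hr (rep x)).pos).mp (by rw [one_mul]; exact hj.le)⟩
  choose j hj using hj
  refine ⟨Finset.univ.sup j, mul_mem (const_mem_BSub _) hf, fun γ => ?_⟩
  set x : A := ⟨modMat (q * M) γ, hfin.mem_toFinset.mpr ⟨γ, rfl⟩⟩
  rw [lexp_const_mul hf, lexp_eq_of_modMat hf (hrep x).symm]
  refine ((hr (rep x)).C_mul (pow_ne_zero _ (Nat.cast_ne_zero.mpr hq.out.ne_zero))).serIn ?_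
  rw [map_pow]
  exact le_trans (mul_le_mul_of_nonneg_right (pow_le_pow_of_le_one (P.abv.nonneg _) P.lt_one.le
    (Finset.le_sup (Finset.mem_univ x))) (hr _).pos.le) (hj x)

end FermatAgent.BAD.Sq

end
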