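import Fermat.Agent.BAD.Sq.Elem.Bound
import Fermat.Agent.BAD.Sq.Sep

/-!
# Invariant functions with fixed expansion at `∞`

Their coefficients at every cusp lie in the field generated by `ζ_q` and the roots of unity of
order prime to `q`; integral ones are functions of the model over some `ℤ_q[μ', ζ_q]`, and
absolute values of fixed numbers are powers of that of `q`.
-/

set_option autoImplicit false

open UpperHalfPlane CongruenceSubgroup IntermediateField
open scoped MatrixGroups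

noncomputable section

namespace FermatAgent.BAD.Sq

open FermatAgent.ES (BSub BRing SerIn HasLExp lexp lexp_eq hasLExp_lexp lexp_act act zetaC AuxLevel
  CPlace GalRel mapSer padicSubring)
open FermatAgent.BAD.TwoP
open Toric (IsSmall)

variable {q M m : ℕ} [hq : Fact q.Prime] [NeZero M] {P : CPlace q}

variable (q M P) in
/-- The functions invariant under the group whose expansion at `∞` has fixed coefficients. -/
def FixR : Subring (ℍ → ℂ) where
  carrier := {f | f ∈ BSub (q * M) ∧ (∀ δ ∈ lamD q M, act δ f = f) ∧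
    SerIn (fixSub P).toSubring (lexp (q * M) 1 f)}
  mul_mem' {f g} hf hg := ⟨mul_mem hf.1 hg.1,
    fun δ hδ => by rw [ES.act_mulFun, hf.2.1 δ hδ, hg.2.1 δ hδ],
    by rw [lexp_mul hf.1 hg.1]; exact hf.2.2.mul hg.2.2⟩
  one_mem' := ⟨one_mem _, fun _ _ => rfl, by
    rw [lexp_eq (M := q * M) (γ := 1) (s := 1) HasLExp.one]; exact SerIn.one⟩
  add_mem' {f g} hf hg := ⟨add_mem hf.1 hg.1,
    fun δ hδ => by rw [ES.act_add, hf.2.1 δ hδ, hg.2.1 δ hδ], by
    rw [lexp_eq ((hasLExp_lexp hf.1 1).add (hasLExp_lexp hg.1 1))]; exact hf.2.2.add hg.2.2⟩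
  zero_mem' := ⟨zero_mem _, fun _ _ => rfl, by
    rw [lexp_eq (M := q * M) (γ := 1) (s := 0) HasLExp.zero]; exact SerIn.zero⟩
  neg_mem' {f} hf := ⟨neg_mem hf.1, fun δ hδ => by rw [ES.act_neg, hf.2.1 δ hδ], by
    rw [lexp_eq (hasLExp_lexp hf.1 1).neg]; exact hf.2.2.neg⟩

/-- Fixed constants are in the ring. -/
theorem const_mem_FixR {c : ℂ} (hc : c ∈ fixSub P) : (fun _ : ℍ => c) ∈ FixR q M P :=
  ⟨const_mem_BSub c, fun _ _ => rfl, by
    rw [lexp_eq (M := q * M) (γ := 1) (f := fun _ : ℍ => c) (HasLExp.const c)]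
    exact SerIn.C hc⟩

/-- A function of level `q M` on `Γ₀(q)` with fixed expansion at `∞` is in the ring. -/
theorem mem_LRing_FixR {O : Subring ℂ} {f : ℍ → ℂ} (hf : f ∈ LRing q M O)
    (h1 : SerIn (fixSub P).toSubring (lexp (q * M) 1 f)) : f ∈ FixR q M P :=
  ⟨hf.1.1, fun δ hδ => hf.2.2 δ (lamD_le hδ), h1⟩

variable (haux : AuxLevel M m) (hM : M.Coprime q)

section Conj

variable (D : InertData M P (⊤ : Subring ℂ))

include haux in
theorem lexp_galRel {f : ℍ → ℂ} (hf : f ∈ FixR q M P) {γ γ' : SL(2, ℤ)}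
    (h : GalRel (D.a : ZMod (q * M)) γ γ') :
    lexp (q * M) γ' f = mapSer (D.σ : ℂ →+* ℂ) (lexp (q * M) γ f) := by
  have e : (D.conjB haux ⟨f, hf.1⟩ : ℍ → ℂ) = f := by
    refine ES.lexp_injective (D.conjB haux _).2 hf.1 (γ := 1) ?_
    rw [D.lexp_conjB haux _ (GalRel.one _)]
    exact serIn_fixSub_iff.mp hf.2.2 D.σ D.small
  conv_lhs => rw [← e]
  exact D.lexp_conjB haux _ h

include haux hM in
theorem mapSer_lexp_of_isNorm {δ : SL(2, ℤ)} (hδ : IsNorm q δ) {f : ℍ → ℂ}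
    (hf : f ∈ FixR q M P) :
    mapSer (D.σ : ℂ →+* ℂ) (lexp (q * M) δ f) = lexp (q * M) δ f := by
  obtain ⟨δ', hr⟩ := GalRel.exists_right D.unit δ
  rw [← lexp_galRel haux D hf hr]
  have hmem : δ' * δ⁻¹ ∈ lamD q M := D.mul_inv_mem_lamD hM hr hδ
  conv_lhs => rw [← inv_mul_cancel_right δ' δ, ← lexp_act, hf.2.1 _ hmem]

end Conj

include haux hM in
/-- At the diagonal and antidiagonal cusps the coefficients are fixed. -/
theorem serIn_fix_of_isNorm {δ : SL(2, ℤ)} (hδ : IsNorm q δ) {f : ℍ → ℂ}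
    (hf : f ∈ FixR q M P) : SerIn (fixSub P).toSubring (lexp (q * M) δ f) := by
  refine serIn_fixSub_iff.mpr fun σ hσ => ?_
  obtain ⟨D, rfl⟩ := exists_inertData (M := M) (P := P) (O := ⊤) σ hσ fun _ _ => trivial
  exact mapSer_lexp_of_isNorm haux hM D hδ hf

include haux hM in
/-- Translates by normalising matrices stay in the ring. -/
theorem act_mem_FixR {δ : SL(2, ℤ)} (hδ : IsNorm q δ) {f : ℍ → ℂ} (hf : f ∈ FixR q M P) :
    act δ f ∈ FixR q M P := by
  refine ⟨ES.act_mem_BSub hf.1 δ, fun γ hγ => ?_, ?_⟩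
  · rw [← ES.act_mul, show δ * γ = δ * γ * δ⁻¹ * δ by group, ES.act_mul,
      hf.2.1 _ (conj_mem_lamD_of_isNorm hδ γ hγ)]
  · rw [lexp_act, mul_one]
    exact serIn_fix_of_isNorm haux hM hδ hf

section Local

variable (Φ : ℂ ≃+* PadicAlgCl q)

theorem map_mem_adjoin_of_fixSub {x : ℂ} (hx : x ∈ fixSub (CPlace.ofEquiv Φ)) :
    Φ x ∈ adjoin ℚ_[q] (primeToRoots q) :=
  CFT.Local.exists_apply_eq_of_mem _ fun s hs => by
    have hR : ∀ t ∈ primeToRoots q, s t = t := fun t ht =>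
      (mem_fixingSubgroup_iff _ s).mp hs t (subset_adjoin _ _ ht)
    have h := congrArg Φ (hx _ (Toric.isSmall_conjC Φ fun y hy => norm_apply_sub_lt hR hy))
    rwa [map_conjC] at h

/-- **The absolute value of a fixed number is a power of that of `q`.** -/
theorem exists_zpow_of_fixSub {x : ℂ} (hx : x ∈ fixSub (CPlace.ofEquiv Φ)) (hx0 : x ≠ 0) :
    ∃ k : ℤ, (CPlace.ofEquiv Φ).abv x = (CPlace.ofEquiv Φ).abv q ^ k := by
  obtain ⟨N, hN, hmem⟩ := exists_mem_uField (map_mem_adjoin_of_fixSub Φ hx)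
  have : NeZero N := ⟨hN.ne'⟩
  obtain ⟨k, hk⟩ := exists_norm_eq_zpow (hmem N dvd_rfl) (by simpa using hx0)
  exact ⟨k, by simpa [CPlace.ofEquiv_abv] using hk⟩

/-- The absolute value of a series with fixed coefficients is a power of that of `q`. -/
theorem exists_zpow_of_serIn {s : LaurentSeries ℂ}
    (hs : SerIn (fixSub (CPlace.ofEquiv Φ)).toSubring s) {r : ℝ}
    (h : HasAbs (CPlace.ofEquiv Φ) s r) : ∃ k : ℤ, r = (CPlace.ofEquiv Φ).abv q ^ k := by
  obtain ⟨i, hi⟩ := h.exists_coeff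
  obtain ⟨k, hk⟩ := exists_zpow_of_fixSub Φ (hs i) fun h0 => by
    rw [h0, map_zero] at hi
    exact h.pos.ne hi
  exact ⟨k, by rw [← hi, hk]⟩

include haux hM in
/-- At every cusp the coefficients lie in the field generated by `ζ_q` and the roots of unity of
order prime to `q`. -/
theorem coeff_mem_lFieldInf {f : ℍ → ℂ} (hf : f ∈ FixR q M (CPlace.ofEquiv Φ)) (γ : SL(2, ℤ))
    (i : ℤ) : Φ ((lexp (q * M) γ f).coeff i) ∈ lFieldInf q (zetaP Φ) := by
  refine CFT.Local.exists_apply_eq_of_mem _ fun s hs => ?_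
  have hR : ∀ t ∈ primeToRoots q, s t = t := fun t ht =>
    (mem_fixingSubgroup_iff _ s).mp hs t (subset_adjoin _ _ (Set.mem_insert_of_mem _ ht))
  have hζ : s (zetaP Φ) = zetaP Φ :=
    (mem_fixingSubgroup_iff _ s).mp hs _ (subset_adjoin _ _ (Set.mem_insert _ _))
  obtain ⟨D, hD⟩ := exists_inertData (M := M) (P := CPlace.ofEquiv Φ) (O := ⊤) (conjC Φ s)
    (Toric.isSmall_conjC Φ fun y hy => norm_apply_sub_lt hR hy) fun _ _ => trivial
  have ha : (D.a : ZMod (q * M)) = 1 := by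
    have : NeZero q := ⟨hq.out.ne_zero⟩
    have hzq : zetaC q = zetaC (q * M) ^ M := by
      rw [zetaC, zetaC, ← Complex.exp_nat_mul]
      congr 1
      have hMc : (M : ℂ) ≠ 0 := Nat.cast_ne_zero.mpr (NeZero.ne M)
      push_cast
      field_simp
    have h1 : D.σ (zetaC q) = zetaC q ^ D.a := by
      rw [hzq, map_pow, D.zeta, ← pow_mul, ← pow_mul, Nat.mul_comm D.a]
    have h2 : D.σ (zetaC q) = zetaC q := Φ.injective (by rw [hD, map_conjC]; exact hζ)
    rw [h1] at h2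
    have hp := ES.zetaC_isPrimitiveRoot q
    have hq' : D.a % q = 1 % q := by
      refine hp.pow_inj (Nat.mod_lt _ hq.out.pos) (Nat.mod_lt _ hq.out.pos) ?_
      rw [Nat.one_mod_eq_one.mpr hq.out.one_lt.ne', pow_one, ← pow_eq_pow_mod _ hp.pow_eq_one]
      exact h2
    have hM' : D.a ≡ 1 [MOD M] :=
      (ZMod.natCast_eq_natCast_iff _ _ _).mp ((D.a_eq_one hM).trans Nat.cast_one.symm)
    rw [← Nat.cast_one, ZMod.natCast_eq_natCast_iff]
    exact (Nat.modEq_and_modEq_iff_modEq_mul (Nat.Coprime.symm hM)).mp ⟨hq', hM'⟩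
  have hrel : GalRel (D.a : ZMod (q * M)) γ γ := by
    rw [ha, GalRel, show (!![1, 0; 0, 1] : Matrix (Fin 2) (Fin 2) (ZMod (q * M))) = 1 from
      Matrix.one_fin_two.symm, one_mul, mul_one]
  have h := congrArg Φ (congrArg (fun x => HahnSeries.coeff x i) (lexp_galRel haux D hf hrel))
  rw [ES.coeff_mapSer, RingEquiv.coe_toRingHom, hD, map_conjC] at h
  exact h.symm

include haux hM in
/-- An integral function is defined over one of the rings `ℤ_q[μ', ζ_q]`. -/
theorem exists_mem_lRing {f : ℍ → ℂ} (hf : f ∈ FixR q M (CPlace.ofEquiv Φ))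
    (hint : f ∈ BRing (q * M) (CPlace.ofEquiv Φ).ring) :
    ∃ N₀ : ℕ, N₀ ≠ 0 ∧ ∀ N : ℕ, N₀ ∣ N → ∀ [NeZero N], f ∈ BRing (q * M) (lRing Φ N) := by
  classical
  obtain ⟨S, hS, hSO⟩ := exists_finset_mem_BRing_level haux hM hint
  set T : Set ℂ := insert (zetaC (q * M)) S
  have hTfin : T.Finite := S.finite_toSet.insert _
  have hO := ES.isCDVR_padicSubring Φ hTfin
  have hTO : ∀ {z}, z ∈ T → z ∈ padicSubring Φ T := fun {z} hz =>
    ES.mem_padicSubring Φ hz (by
      rw [← CPlace.ofEquiv_abv]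
      rcases hz with rfl | hz
      · exact goodRoot_zeta (M := M) (P := CPlace.ofEquiv Φ)
      · exact hS hz)
  have hA := hO.goodRoot ((CPlace.ofEquiv Φ).goodRoot hM) (by
    rw [← zetaC_level_pow (q := q) (M := M)]
    exact (padicSubring Φ T).pow_mem (hTO (Set.mem_insert _ _)) q)
  have hfO := hSO _ hO hA (hTO (Set.mem_insert _ _)) fun z hz => hTO (Set.mem_insert_of_mem _ hz)
  set K := adjoin ℚ_[q] (Φ '' T) ⊓ lFieldInf q (zetaP Φ)
  have : Finite (Φ '' T : Set (PadicAlgCl q)) := (hTfin.image Φ).to_subtype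
  have : FiniteDimensional ℚ_[q] (adjoin ℚ_[q] (Φ '' T)) :=
    finiteDimensional_adjoin fun x _ => Algebra.IsIntegral.isIntegral x
  have : FiniteDimensional ℚ_[q] K :=
    FiniteDimensional.of_injective (IntermediateField.inclusion (inf_le_left :
      K ≤ adjoin ℚ_[q] (Φ '' T))).toLinearMap (IntermediateField.inclusion (inf_le_left :
      K ≤ adjoin ℚ_[q] (Φ '' T))).toRingHom.injective
  set b := Module.finBasis ℚ_[q] K
  have hb : ∀ k, ∃ N : ℕ, 0 < N ∧ ∀ n, N ∣ n → ∀ [NeZero n],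
      ((b k : K) : PadicAlgCl q) ∈ lField q (zetaP Φ) n := fun k => exists_mem_lField (b k).2.2
  choose Nk hNk hmem using hb
  refine ⟨∏ k, Nk k, (Finset.prod_pos fun k _ => hNk k).ne', fun N hN hN0 => ⟨hf.1, fun γ i => ?_⟩⟩
  refine (mem_lRing Φ).mpr ⟨?_, (hfO.2 γ i).2⟩
  set x : K := ⟨Φ ((lexp (q * M) γ f).coeff i), (hfO.2 γ i).1, coeff_mem_lFieldInf haux hM Φ hf γ i⟩
  have hx : ((∑ k, b.repr x k • b k : K) : PadicAlgCl q) = Φ ((lexp (q * M) γ f).coeff i) := by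
    rw [b.sum_repr x]
  rw [← hx, IntermediateField.coe_sum]
  refine sum_mem fun k _ => ?_
  rw [IntermediateField.coe_smul]
  exact IntermediateField.smul_mem _
    (hmem k N ((Finset.dvd_prod_of_mem Nk (Finset.mem_univ k)).trans hN))

variable {Φ}

/-- Integral functions of this kind are in the ring of the model. -/
theorem mem_A0_of_fix {N : ℕ} [NeZero N] {C : Coef M (CPlace.ofEquiv Φ)} (hC : C.O = lRing Φ N)
    (hC0 : C.O0 = uRing Φ N) {f : ℍ → ℂ} (hf : f ∈ FixR q M (CPlace.ofEquiv Φ))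
    (hfO : f ∈ BRing (q * M) (lRing Φ N)) : f ∈ A0 C := by
  refine ⟨⟨hC ▸ hfO, hf.2.1⟩, fun i => ?_⟩
  rw [hC0, mem_uRing_iff_fixed]
  exact ⟨hfO.2 1 i, fun a => hf.2.2 i _ (small_fixG Φ a)⟩

/-- An integral invariant function with fixed expansion lies in `L0`. -/
theorem mem_L0_of_fix {N : ℕ} [NeZero N] {C : Coef M (CPlace.ofEquiv Φ)} (hC : C.O = lRing Φ N)
    (hC0 : C.O0 = uRing Φ N) {f : ℍ → ℂ} (hf : f ∈ FixR q M (CPlace.ofEquiv Φ))
    (hfO : f ∈ BRing (q * M) (lRing Φ N)) (hinv : ∀ γ ∈ lam q M, act γ f = f) : f ∈ L0 C :=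
  Subring.mem_inf.mpr ⟨mem_A0_of_fix hC hC0 hf hfO, mem_LRing.mpr ⟨⟨hf.1, hinv⟩, by
    rw [hC]; exact hfO.2⟩⟩

end Local

end FermatAgent.BAD.Sq

end
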