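import Fermat.Agent.BAD.Sq.Elem.Fix
import Fermat.Agent.BAD.Toric.InertFix
import Fermat.Agent.PSEMI.Class.Twist

/-!
# The form of level `q M` attached to a fixed character

`u (τ) = v (τ / q)` for the normalised form `v` of `φ`; its multiplier on
`Γ₀(q) ∩ Γ⁰(q) ∩ Γ(M)` is `φ` conjugated by `diag (1, q)`.
-/

set_option autoImplicit false

open UpperHalfPlane CongruenceSubgroup
open scoped MatrixGroups ModularForm

noncomputable section

namespace FermatAgent.BAD.Sq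

open FermatAgent.ES (BSub SerIn HasExp HasLExp lexp lexp_eq act zetaC AuxLevel CPlace IsTwist
  IsParChar parGroup galChar goodLevel_Gamma0)

/-- `(a, b / q; q c, d)`. -/
def conjMat (q : ℕ) [Fact q.Prime] (δ : SL(2, ℤ)) (h : (q : ℤ) ∣ δ 0 1) : SL(2, ℤ) :=
  ⟨!![δ 0 0, δ 0 1 / q; q * δ 1 0, δ 1 1], by
    obtain ⟨b, hb⟩ := h
    have hdet := Matrix.SpecialLinearGroup.det_coe δ
    rw [Matrix.det_fin_two, hb] at hdet
    rw [Matrix.det_fin_two_of, hb, Int.mul_ediv_cancel_left _ (by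
      exact_mod_cast (Fact.out : q.Prime).ne_zero)]
    linear_combination hdet⟩

variable {q L M m : ℕ} [hq : Fact q.Prime] [NeZero M]

/-- The entries of the conjugate. -/
theorem conjMat_entries (δ : SL(2, ℤ)) (h : (q : ℤ) ∣ δ 0 1) :
    conjMat q δ h 0 0 = δ 0 0 ∧ (q : ℤ) * conjMat q δ h 0 1 = δ 0 1 ∧
      conjMat q δ h 1 0 = q * δ 1 0 ∧ conjMat q δ h 1 1 = δ 1 1 :=
  ⟨rfl, by
    show (q : ℤ) * (δ 0 1 / q) = δ 0 1
    exact Int.mul_ediv_cancel' h, rfl, rfl⟩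

/-- The conjugate is determined by its entries. -/
theorem eq_conjMat {δ g : SL(2, ℤ)} (h : (q : ℤ) ∣ δ 0 1) (h00 : g 0 0 = δ 0 0)
    (h01 : (q : ℤ) * g 0 1 = δ 0 1) (h10 : g 1 0 = q * δ 1 0) (h11 : g 1 1 = δ 1 1) :
    g = conjMat q δ h := by
  obtain ⟨e00, e01, e10, e11⟩ := conjMat_entries δ h
  ext i j
  fin_cases i <;> fin_cases j
  exacts [h00.trans e00.symm,
    mul_left_cancel₀ (Int.natCast_ne_zero.mpr hq.out.ne_zero) (h01.trans e01.symm),
    h10.trans e10.symm, h11.trans e11.symm]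

omit hq [NeZero M] in
/-- The upper right entries of the group are divisible by `q`. -/
theorem dvd_of_mem_lamD {δ : SL(2, ℤ)} (hδ : δ ∈ lamD q M) : (q : ℤ) ∣ δ 0 1 :=
  (ZMod.intCast_zmod_eq_zero_iff_dvd _ _).mp hδ.1.2

omit [NeZero M] in
theorem conjMat_mem (hM : M.Coprime q) (hLM : L ∣ M) {δ : SL(2, ℤ)} (hδ : δ ∈ lamD q M)
    (h : (q : ℤ) ∣ δ 0 1) : conjMat q δ h ∈ Gamma0 (L * q ^ 2) := by
  rw [Gamma0_mem, (conjMat_entries δ h).2.2.1, ZMod.intCast_zmod_eq_zero_iff_dvd]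
  have h1 : (q : ℤ) ∣ δ 1 0 := (ZMod.intCast_zmod_eq_zero_iff_dvd _ _).mp hδ.1.1
  have h2 : (L : ℤ) ∣ δ 1 0 := (Int.natCast_dvd_natCast.mpr hLM).trans
    ((ZMod.intCast_zmod_eq_zero_iff_dvd _ _).mp (Gamma_mem.mp hδ.2).2.2.1)
  have hcop : IsCoprime (L : ℤ) (q : ℤ) :=
    Int.isCoprime_iff_nat_coprime.mpr (by simpa using hM.coprime_dvd_left hLM)
  rw [show ((L * q ^ 2 : ℕ) : ℤ) = q * (L * q) by push_cast; ring]
  exact mul_dvd_mul_left _ (hcop.mul_dvd h2 h1)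

/-- Conjugation is multiplicative. -/
theorem conjMat_mul {δ ε : SL(2, ℤ)} (hd : (q : ℤ) ∣ δ 0 1) (he : (q : ℤ) ∣ ε 0 1)
    (h : (q : ℤ) ∣ (δ * ε) 0 1) : conjMat q (δ * ε) h = conjMat q δ hd * conjMat q ε he := by
  symm
  obtain ⟨a00, a01, a10, a11⟩ := conjMat_entries δ hd
  obtain ⟨b00, b01, b10, b11⟩ := conjMat_entries ε he
  refine eq_conjMat h ?_ ?_ ?_ ?_ <;>
    simp only [Matrix.SpecialLinearGroup.coe_mul, Matrix.mul_apply, Fin.sum_univ_two]
  · rw [a00, b00, b10, ← a01]; ring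
  · rw [a00, b11, ← a01, ← b01]; ring
  · rw [a10, b00, a11, b10]; ring
  · rw [a10, a11, b11, ← b01]; ring

variable (q L M) in
/-- Conjugation by `diag (1, q)`. -/
def conjD (hM : M.Coprime q) (hLM : L ∣ M) : lamD q M →* Gamma0 (L * q ^ 2) where
  toFun δ := ⟨conjMat q (δ : SL(2, ℤ)) (dvd_of_mem_lamD δ.2), conjMat_mem hM hLM δ.2 _⟩
  map_one' := Subtype.ext (by
    symm
    refine eq_conjMat (dvd_of_mem_lamD (1 : lamD q M).2) ?_ ?_ ?_ ?_ <;> simp)
  map_mul' δ ε := Subtype.ext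
    (conjMat_mul (dvd_of_mem_lamD δ.2) (dvd_of_mem_lamD ε.2) (dvd_of_mem_lamD (δ * ε).2))

omit [NeZero M] in
/-- The conjugation as a matrix. -/
theorem coe_conjD (hM : M.Coprime q) (hLM : L ∣ M) (δ : lamD q M) :
    (conjD q L M hM hLM δ : SL(2, ℤ)) = conjMat q (δ : SL(2, ℤ)) (dvd_of_mem_lamD δ.2) := rfl

theorem heckeMatrix_mul (δ : SL(2, ℤ)) (h : (q : ℤ) ∣ δ 0 1) :
    ModularForm.heckeMatrix q 0 * (δ : GL (Fin 2) ℝ) =
      (conjMat q δ h : GL (Fin 2) ℝ) * ModularForm.heckeMatrix q 0 := by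
  obtain ⟨e00, e01, e10, e11⟩ := conjMat_entries δ h
  have c01 := congrArg (Int.cast : ℤ → ℝ) e01
  push_cast at c01
  refine Units.ext ?_
  simp only [Units.val_mul, ModularForm.val_heckeMatrix hq.out.ne_zero, Nat.cast_zero]
  ext i j
  fin_cases i <;> fin_cases j <;>
    simp [Matrix.mul_apply, Fin.sum_univ_two, e00, e10, e11, ← c01, mul_comm]

/-- **The form of level `q M`.** -/
theorem exists_form [NeZero L] (hM : M.Coprime q) (hLM : L ∣ M) {n : ℕ} [NeZero n]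
    (φ : parGroup (Gamma0 (L * q ^ 2)) n) (P : CPlace q)
    (hφ : ∀ s ∈ P.algVal.inertiaSubgroupIn ℚ,
      galChar (goodLevel_Gamma0 (L * q ^ 2)) n s φ = φ) :
    ∃ (u : ℍ → ℂ) (χ : lamD q M →* ℂˣ),
      IsTwist (lamD q M) ((2 * 2 : ℕ) : ℤ) χ u ∧ u ≠ 0 ∧ χ ^ n = 1 ∧ IsParChar (lamD q M) χ ∧
      (∀ δ, χ δ = φ.1 (conjD q L M hM hLM δ)) ∧
      SerIn (fixSub P).toSubring (HahnSeries.ofPowerSeries ℤ ℂ
        (qExpansion ((q * M : ℕ) : ℝ) u)) := by
  have : NeZero (L * q ^ 2) := ⟨mul_ne_zero (NeZero.ne L) (pow_ne_zero 2 hq.out.ne_zero)⟩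
  obtain ⟨v, c, hv, hv0, hc, -, hfix⟩ := Toric.exists_fixed_form φ
  have hcfix : ∀ e, PowerSeries.coeff e c ∈ fixSub P := fun e σ hσ => by
    obtain ⟨g, hg, hgσ⟩ := Toric.exists_inertia_of_small hσ
    have h := congrArg (PowerSeries.coeff e) (hfix σ (by
      rw [← ES.conjAut_apply, ← ES.galChar_eq _ n hgσ]; exact hφ g hg))
    rwa [PowerSeries.coeff_map] at h
  set k : ℤ := ((2 * 2 : ℕ) : ℤ)
  set u : ℍ → ℂ := v ∣[k] ModularForm.heckeMatrix q 0 with hu_def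
  have hu : ∀ τ, u τ = (q : ℂ)⁻¹ * v (ctrPt q 0 τ) := fun τ => by
    rw [hu_def, ModularForm.slash_heckeMatrix_apply k hq.out.ne_zero]
    congr 2
    exact UpperHalfPlane.ext (by
      rw [ModularForm.coe_heckeMatrix_smul hq.out.ne_zero, coe_ctrPt])
  set χ : lamD q M →* ℂˣ := φ.1.comp (conjD q L M hM hLM)
  have hq0 : ((q : ℂ)⁻¹) ≠ 0 := inv_ne_zero (Nat.cast_ne_zero.mpr hq.out.ne_zero)
  have hχn : χ ^ n = 1 := MonoidHom.ext fun δ => by
    have h := DFunLike.congr_fun φ.2.1 (conjD q L M hM hLM δ)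
    simpa [χ] using h
  have hχp : IsParChar (lamD q M) χ := fun δ hδ => φ.2.2 _ (by
    rw [← hδ, Matrix.trace_fin_two, Matrix.trace_fin_two]
    rfl)
  have htw : IsTwist (lamD q M) k χ u :=
    { mdiff := hv.mdiff.slash k _
      slash := fun δ => by
        rw [hu_def, ModularForm.SL_slash, ← SlashAction.slash_mul,
          heckeMatrix_mul _ (dvd_of_mem_lamD δ.2), SlashAction.slash_mul, ← ModularForm.SL_slash,
          ← coe_conjD hM hLM δ, hv.slash,
          show (fun τ => ((φ.1 (conjD q L M hM hLM δ) : ℂˣ) : ℂ) * v τ) =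
            ((φ.1 (conjD q L M hM hLM δ) : ℂˣ) : ℂ) • v from rfl, ModularForm.smul_slash,
          ModularForm.σ_heckeMatrix]
        rfl
      bdd := fun γ => by
        rw [hu_def, ModularForm.SL_slash, ← SlashAction.slash_mul]
        refine hv.bdd_of_int _ fun a b => ?_
        refine ⟨(if a = 0 then 1 else 0) * γ 0 b + (if a = 0 then 0 else (q : ℤ)) * γ 1 b, ?_⟩
        fin_cases a <;>
          simp [Units.val_mul, Matrix.mul_apply, Fin.sum_univ_two,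
            ModularForm.val_heckeMatrix hq.out.ne_zero] }
  refine ⟨u, χ, htw, fun h0 => hv0 ?_, hχn, hχp, fun δ => rfl, ?_⟩
  · funext τ
    have h := congrFun h0 (dilPt q τ)
    rw [hu] at h
    have e : ctrPt q 0 (dilPt q τ) = τ := UpperHalfPlane.ext (by
      rw [coe_ctrPt, coe_dilPt, Nat.cast_zero, add_zero,
        mul_div_cancel_left₀ _ (Nat.cast_ne_zero.mpr hq.out.ne_zero)])
    rw [e] at h
    exact (mul_eq_zero.mp h).resolve_left hq0
  · have h1 : HasLExp (q * M) (act 1 u) (HahnSeries.ofPowerSeries ℤ ℂ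
        (qExpansion ((q * M : ℕ) : ℝ) u)) := by
      have h := ES.hasExp_slash_twist (M := q * M) gamma_qM_le_lamD hχp htw 1
      rw [SlashAction.slash_one] at h
      rw [ES.act_one]
      exact HasLExp.of_exp h
    have h2 : HasLExp (q * M) (act 1 u) (HahnSeries.C (q : ℂ)⁻¹ *
        ES.twistSer (zetaC (q * M) ^ 0) (HahnSeries.ofPowerSeries ℤ ℂ
          (PowerSeries.expand M (NeZero.ne M) c))) := by
      rw [ES.act_one]
      exact ((HasLExp.const _).mul (hasLExp_ctrPt q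
        (HasLExp.of_exp (hasExp_widen (NeZero.ne M) hc)) 0)).congr_fun fun τ => hu τ
    rw [← lexp_eq h1, lexp_eq h2]
    refine (SerIn.C ((fixSub P).inv_mem (natCast_mem_fixSub q))).mul fun i => ?_
    rw [ES.coeff_twistSer, pow_zero, one_zpow, mul_one]
    rcases le_or_gt 0 i with hi | hi
    · lift i to ℕ using hi
      rw [HahnSeries.ofPowerSeries_apply_coeff, PowerSeries.coeff_expand]
      split_ifs
      · exact hcfix _
      · exact (fixSub P).zero_mem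
    · rw [HahnSeries.ofPowerSeries_apply, HahnSeries.embDomain_of_notMem_range]
      · exact (fixSub P).zero_mem
      · rintro ⟨j, hj⟩; simp at hj; omega

end FermatAgent.BAD.Sq

end
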