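import Fermat.Agent.BAD.Sq.Elem.Form
import Fermat.Agent.BAD.Sq.Def

/-!
# The transfers of the multiplier are trivial
-/

set_option autoImplicit false

open UpperHalfPlane CongruenceSubgroup
open scoped MatrixGroups

noncomputable section

namespace FermatAgent.BAD.Sq

variable {q L M : ℕ} [hq : Fact q.Prime] [NeZero M]

variable (q M) in
/-- The products of the factors of the translates are killed. -/
def TrKills (χ : lamD q M →* ℂˣ) : Prop :=
  ∀ γ ∈ lam q M, ∀ (π : Equiv.Perm (ZMod q)) (δ : ZMod q → lamD q M),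
    (∀ j, ModularGroup.T ^ (M * j.val) * γ =
      (δ j : SL(2, ℤ)) * ModularGroup.T ^ (M * (π j).val)) → ∏ j, χ (δ j) = 1

omit [NeZero M] in
/-- The condition passes to powers. -/
theorem TrKills.pow {χ : lamD q M →* ℂˣ} (h : TrKills q M χ) (a : ℕ) : TrKills q M (χ ^ a) :=
  fun γ hγ π δ hd => by
    simp only [MonoidHom.pow_apply, Finset.prod_pow, h γ hγ π δ hd, one_pow]

/-- Factors differing from those of a transfer by a coboundary. -/
theorem prod_eq_one_of_kills {G : Type*} [CommGroup G] {ι κ : Type*} [Fintype ι] [Fintype κ]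
    {N N' : ℕ} {rep : κ → Matrix (Fin 2) (Fin 2) ℤ} {φ : Gamma0 N →* G}
    (hk : KillsTransfer N N' rep φ) (γ : Gamma0 N') (e : ι ≃ κ) (π : Equiv.Perm ι)
    (ε δ : ι → Gamma0 N)
    (h : ∀ i, ((ε i : SL(2, ℤ)) : Matrix (Fin 2) (Fin 2) ℤ) * rep (e i) *
        ((γ : SL(2, ℤ)) : Matrix (Fin 2) (Fin 2) ℤ) =
      ((δ i : SL(2, ℤ)) : Matrix (Fin 2) (Fin 2) ℤ) *
        (((ε (π i) : SL(2, ℤ)) : Matrix (Fin 2) (Fin 2) ℤ) * rep (e (π i)))) :
    ∏ i, φ (δ i) = 1 := by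
  have h1 := hk γ (e.symm.trans (π.trans e))
    (fun k => (ε (e.symm k))⁻¹ * δ (e.symm k) * ε (π (e.symm k))) fun k => by
      obtain ⟨i, rfl⟩ := e.surjective k
      simp only [Equiv.trans_apply, Equiv.symm_apply_apply, Subgroup.coe_mul, InvMemClass.coe_inv,
        Matrix.SpecialLinearGroup.coe_mul, Matrix.mul_assoc]
      rw [← h i, ← Matrix.mul_assoc, ← Matrix.mul_assoc, ← Matrix.SpecialLinearGroup.coe_mul,
        inv_mul_cancel, Matrix.SpecialLinearGroup.coe_one, Matrix.one_mul]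
  rw [Equiv.prod_comp e.symm fun i => φ ((ε i)⁻¹ * δ i * ε (π i))] at h1
  simp only [map_mul, map_inv, Finset.prod_mul_distrib, Finset.prod_inv_distrib,
    Equiv.prod_comp π fun i => φ (ε i)] at h1
  rw [mul_comm, mul_inv_cancel_left] at h1
  exact h1

variable (hM : M.Coprime q) (hLM : L ∣ M) {φ : Gamma0 (L * q ^ 2) →* ℂˣ}

omit hq [NeZero M] in
theorem mem_Gamma0_Lq_of_lam {γ : SL(2, ℤ)} (hM : M.Coprime q) (hLM : L ∣ M) (hγ : γ ∈ lam q M) :
    γ ∈ Gamma0 (L * q) := by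
  rw [Gamma0_mem, ZMod.intCast_zmod_eq_zero_iff_dvd]
  have hcop : IsCoprime (L : ℤ) (q : ℤ) :=
    Int.isCoprime_iff_nat_coprime.mpr (by simpa using hM.coprime_dvd_left hLM)
  push_cast
  exact hcop.mul_dvd ((Int.natCast_dvd_natCast.mpr hLM).trans
      ((ZMod.intCast_zmod_eq_zero_iff_dvd _ _).mp (Gamma_mem.mp hγ.2).2.2.1))
    ((ZMod.intCast_zmod_eq_zero_iff_dvd _ _).mp (Gamma0_mem.mp hγ.1))

theorem T_pow_mem_Gamma0 (N y : ℕ) : ModularGroup.T ^ y ∈ Gamma0 N := by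
  rw [Gamma0_mem, ES.T_pow_coe]; simp

omit [NeZero M] in
include hM hLM in
/-- The first transfer. -/
theorem trKills_beta (hk : KillsTransfer (L * q ^ 2) (L * q) (upRep q) φ) :
    TrKills q M (φ.comp (conjD q L M hM hLM)) := by
  intro γ hγ π δ hd
  let r : ZMod q → Fin q := fun j => ⟨M * j.val % q, Nat.mod_lt _ hq.out.pos⟩
  have hr : Function.Bijective r := by
    refine (Fintype.bijective_iff_injective_and_card r).mpr ⟨fun i j h => ?_, by simp⟩
    have h1 := congrArg (fun x : Fin q => ((x : ℕ) : ZMod q)) h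
    simp only [r, ZMod.natCast_mod, Nat.cast_mul, ZMod.natCast_zmod_val] at h1
    exact mul_left_cancel₀ (natCast_M_ne_zero hM) h1
  refine prod_eq_one_of_kills hk ⟨γ, mem_Gamma0_Lq_of_lam hM hLM hγ⟩ (Equiv.ofBijective r hr) π
    (fun j => ⟨ModularGroup.T ^ (M * j.val / q), T_pow_mem_Gamma0 _ _⟩)
    (fun j => conjD q L M hM hLM (δ j)) fun j => ?_
  have hU : ∀ i : ZMod q, ((ModularGroup.T ^ (M * i.val / q) : SL(2, ℤ)) :
      Matrix (Fin 2) (Fin 2) ℤ) * upRep q (r i) =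
      !![1, 0; 0, (q : ℤ)] * ((ModularGroup.T ^ (M * i.val) : SL(2, ℤ)) :
        Matrix (Fin 2) (Fin 2) ℤ) := fun i => by
    rw [ES.T_pow_coe, ES.T_pow_coe]
    simp only [upRep, r]
    generalize M * i.val = a
    have e : ((a % q : ℕ) : ℤ) + ((a / q : ℕ) : ℤ) * q = (a : ℤ) := by
      exact_mod_cast Nat.mod_add_div' a q
    rw [← e]
    ext b c
    fin_cases b <;> fin_cases c <;> simp [Matrix.mul_apply, Fin.sum_univ_two]
  have hD : !![1, 0; 0, (q : ℤ)] * ((δ j : SL(2, ℤ)) : Matrix (Fin 2) (Fin 2) ℤ) =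
      ((conjD q L M hM hLM (δ j) : SL(2, ℤ)) : Matrix (Fin 2) (Fin 2) ℤ) *
        !![1, 0; 0, (q : ℤ)] := by
    obtain ⟨e00, e01, e10, e11⟩ := conjMat_entries (δ j : SL(2, ℤ)) (dvd_of_mem_lamD (δ j).2)
    rw [coe_conjD]
    ext a b
    fin_cases a <;> fin_cases b <;>
      simp [Matrix.mul_apply, Fin.sum_univ_two, e00, e10, e11, ← e01, mul_comm]
  show _ * upRep q (r j) * _ = _ * (_ * upRep q (r (π j)))
  rw [hU, hU, Matrix.mul_assoc, ← Matrix.SpecialLinearGroup.coe_mul, hd j,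
    Matrix.SpecialLinearGroup.coe_mul, ← Matrix.mul_assoc, hD, Matrix.mul_assoc]

/-- Conjugation by a normalising matrix. -/
def conjN {g : SL(2, ℤ)} (hg : IsNorm q g) : lamD q M →* lamD q M where
  toFun δ := ⟨g * δ * g⁻¹, conj_mem_lamD_of_isNorm hg _ δ.2⟩
  map_one' := Subtype.ext (by simp)
  map_mul' δ ε := Subtype.ext (by simp only [Subgroup.coe_mul]; group)

omit [NeZero M] in
/-- The conjugation as a matrix. -/
theorem coe_conjN {g : SL(2, ℤ)} (hg : IsNorm q g) (δ : lamD q M) :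
    (conjN hg δ : SL(2, ℤ)) = g * (δ : SL(2, ℤ)) * g⁻¹ := rfl

include hM hLM in
/-- The second transfer. -/
theorem trKills_alpha (hk : KillsTransfer (L * q ^ 2) (L * q) (lowRep L q) φ) :
    TrKills q M ((φ.comp (conjD q L M hM hLM)).comp (conjN (isNorm_atkinMat hM))) := by
  intro γ hγ π δ hd
  set g := atkinMat hM with hgdef
  have g00 : ent q g 0 0 = 0 :=
    (ZMod.intCast_zmod_eq_zero_iff_dvd _ _).mpr (atkinMat_dvd hM).1
  have g11 : ent q g 1 1 = 0 :=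
    (ZMod.intCast_zmod_eq_zero_iff_dvd _ _).mpr (atkinMat_dvd hM).2
  obtain ⟨i00, i01, i10, i11⟩ := ent_inv (q := q) g
  have hconj01 : ∀ x : SL(2, ℤ), ent q x 1 0 = 0 → (q : ℤ) ∣ (g * x * g⁻¹) 0 1 := fun x hx => by
    refine (ZMod.intCast_zmod_eq_zero_iff_dvd _ _).mp ?_
    show ent q (g * x * g⁻¹) 0 1 = 0
    simp only [ent_mul, i01, i11, g00, hx, zero_mul, mul_zero, add_zero]
  set K : ZMod q → SL(2, ℤ) := fun j => g * ModularGroup.T ^ (M * j.val) * g⁻¹ with hKdef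
  have hK01 : ∀ j, (q : ℤ) ∣ K j 0 1 := fun j => hconj01 _ (ent_T_pow (q := q) _).2.2.1
  have hKM : ∀ j, K j ∈ Gamma M := fun j => (Gamma_normal M).conj_mem _ (T_pow_mem_Gamma _) g
  have hK10 : ∀ j, ent q (K j) 1 0 = -((M : ZMod q) * j) * ent q g 1 0 ^ 2 := fun j => by
    obtain ⟨t00, t01, t10, t11⟩ := ent_T_pow (q := q) (M * j.val)
    show ent q (g * ModularGroup.T ^ (M * j.val) * g⁻¹) 1 0 = _
    simp only [ent_mul, i00, i10, t00, t01, t10, t11, g11, Nat.cast_mul, ZMod.natCast_zmod_val]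
    ring
  have hK11 : ∀ j, ent q (K j) 1 1 = 1 := fun j => by
    have hdet := ent_det (q := q) g
    obtain ⟨t00, t01, t10, t11⟩ := ent_T_pow (q := q) (M * j.val)
    show ent q (g * ModularGroup.T ^ (M * j.val) * g⁻¹) 1 1 = _
    simp only [ent_mul, i01, i11, t00, t01, t10, t11, g00, g11]
    rw [g00, g11] at hdet
    linear_combination hdet
  have hLq : (L : ZMod q) ≠ 0 := fun h => natCast_M_ne_zero hM (by
    obtain ⟨r, rfl⟩ := hLM
    rw [Nat.cast_mul, h, zero_mul])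
  have hg10 : ent q g 1 0 ≠ 0 := fun h => atkinMat_not_dvd hM
    ((ZMod.intCast_zmod_eq_zero_iff_dvd _ _).mp h)
  let x : ZMod q → Fin q := fun j =>
    ⟨(ent q (K j) 1 0 / (L : ZMod q)).val, ZMod.val_lt _⟩
  have hx : Function.Bijective x := by
    refine (Fintype.bijective_iff_injective_and_card x).mpr ⟨fun i j h => ?_, by simp⟩
    have h1 := congrArg (fun y : Fin q => ((y : ℕ) : ZMod q)) h
    simp only [x, ZMod.natCast_zmod_val, div_eq_mul_inv, hK10] at h1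
    exact mul_left_cancel₀ (natCast_M_ne_zero hM)
      (neg_inj.mp (mul_right_cancel₀ (pow_ne_zero 2 hg10)
      (mul_right_cancel₀ (inv_ne_zero hLq) h1)))
  set Lo : ZMod q → SL(2, ℤ) := fun j =>
    ⟨lowRep L q (x j), by simp [lowRep, Matrix.det_fin_two_of]⟩
  set Lj : ZMod q → SL(2, ℤ) := fun j => conjMat q (K j) (hK01 j)
  have hε : ∀ j, Lj j * (Lo j)⁻¹ ∈ Gamma0 (L * q ^ 2) := fun j => by
    obtain ⟨-, -, e10, e11⟩ := conjMat_entries (K j) (hK01 j)
    rw [Gamma0_mem, ZMod.intCast_zmod_eq_zero_iff_dvd]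
    have hval : ((Lj j * (Lo j)⁻¹) 1 0 : ℤ) =
        q * (K j 1 0 - (L * ((x j : ℕ) : ℤ)) * K j 1 1) := by
      simp only [Matrix.SpecialLinearGroup.coe_mul, Matrix.SpecialLinearGroup.coe_inv,
        Matrix.adjugate_fin_two, Matrix.mul_apply, Fin.sum_univ_two, Lj, Lo, lowRep, e10, e11,
        Matrix.of_apply, Matrix.cons_val', Matrix.cons_val_zero, Matrix.cons_val_one,
        Matrix.cons_val_fin_one]
      push_cast
      ring
    rw [hval, show ((L * q ^ 2 : ℕ) : ℤ) = q * (L * q) by push_cast; ring]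
    refine mul_dvd_mul_left _ ?_
    have hcop : IsCoprime (L : ℤ) (q : ℤ) :=
      Int.isCoprime_iff_nat_coprime.mpr (by simpa using hM.coprime_dvd_left hLM)
    refine hcop.mul_dvd (dvd_sub ((Int.natCast_dvd_natCast.mpr hLM).trans
      ((ZMod.intCast_zmod_eq_zero_iff_dvd _ _).mp (Gamma_mem.mp (hKM j)).2.2.1))
      ((dvd_mul_right _ _).mul_right _)) ((ZMod.intCast_zmod_eq_zero_iff_dvd _ _).mp ?_)
    push_cast
    show ent q (K j) 1 0 - (L : ZMod q) * ((x j : ℕ) : ZMod q) * ent q (K j) 1 1 = 0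
    rw [hK11, mul_one]
    simp only [x, ZMod.natCast_zmod_val]
    rw [mul_div_cancel₀ _ hLq, sub_self]
  have hγ0 : ent q γ 1 0 = 0 := Gamma0_mem.mp hγ.1
  have hγ' : conjMat q (g * γ * g⁻¹) (hconj01 γ hγ0) ∈ Gamma0 (L * q) := by
    obtain ⟨-, -, e10, -⟩ := conjMat_entries (g * γ * g⁻¹) (hconj01 γ hγ0)
    rw [Gamma0_mem, e10, ZMod.intCast_zmod_eq_zero_iff_dvd]
    push_cast
    rw [mul_comm (L : ℤ)]
    exact mul_dvd_mul_left _ ((Int.natCast_dvd_natCast.mpr hLM).trans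
      ((ZMod.intCast_zmod_eq_zero_iff_dvd _ _).mp
        (Gamma_mem.mp ((Gamma_normal M).conj_mem _ hγ.2 g)).2.2.1))
  refine prod_eq_one_of_kills hk ⟨_, hγ'⟩ (Equiv.ofBijective x hx) π
    (fun j => ⟨Lj j * (Lo j)⁻¹, hε j⟩)
    (fun j => conjD q L M hM hLM (conjN (isNorm_atkinMat hM) (δ j))) fun j => ?_
  show ((Lj j * (Lo j)⁻¹ : SL(2, ℤ)) : Matrix (Fin 2) (Fin 2) ℤ) *
      ((Lo j : SL(2, ℤ)) : Matrix (Fin 2) (Fin 2) ℤ) * _ =
    _ * (((Lj (π j) * (Lo (π j))⁻¹ : SL(2, ℤ)) : Matrix (Fin 2) (Fin 2) ℤ) *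
      ((Lo (π j) : SL(2, ℤ)) : Matrix (Fin 2) (Fin 2) ℤ))
  simp only [← Matrix.SpecialLinearGroup.coe_mul, inv_mul_cancel_right, coe_conjD]
  congr 1
  have key : K j * (g * γ * g⁻¹) =
      (conjN (isNorm_atkinMat hM) (δ j) : SL(2, ℤ)) * K (π j) := by
    rw [coe_conjN, hKdef]
    simp only [← hgdef]
    calc g * ModularGroup.T ^ (M * j.val) * g⁻¹ * (g * γ * g⁻¹)
        = g * (ModularGroup.T ^ (M * j.val) * γ) * g⁻¹ := by group
      _ = _ := by rw [hd j]; group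
  have hmul : ∀ {a b : SL(2, ℤ)}, (q : ℤ) ∣ a 0 1 → (q : ℤ) ∣ b 0 1 → (q : ℤ) ∣ (a * b) 0 1 := by
    intro a b ha hb
    simp only [Matrix.SpecialLinearGroup.coe_mul, Matrix.mul_apply, Fin.sum_univ_two]
    exact dvd_add (hb.mul_left _) (ha.mul_right _)
  calc Lj j * conjMat q (g * γ * g⁻¹) (hconj01 γ hγ0)
      = conjMat q (K j * (g * γ * g⁻¹)) (hmul (hK01 j) (hconj01 γ hγ0)) :=
        (conjMat_mul _ _ _).symm
    _ = conjMat q ((conjN (isNorm_atkinMat hM) (δ j) : SL(2, ℤ)) * K (π j))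
        (hmul (dvd_of_mem_lamD (SetLike.coe_mem _)) (hK01 _)) := by congr 1
    _ = _ := conjMat_mul _ _ _

end FermatAgent.BAD.Sq

end
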