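import Fermat.Agent.BAD.Sq.Elem.Typ
import Fermat.Agent.BAD.Sq.Elem.Transfer
import Fermat.Agent.BAD.Sq.Elt

/-!
# Roots of invariant functions and their products over the translates

A root of an invariant function with fixed expansion has absolute values given by the type of the
cusp; when the transfers of its multiplier are trivial, the product of its translates is invariant
with fixed expansion.
-/

set_option autoImplicit false

open UpperHalfPlane CongruenceSubgroup
open scoped MatrixGroups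

noncomputable section

namespace FermatAgent.BAD.Sq

open FermatAgent.ES (BSub SerIn HasLExp lexp lexp_eq hasLExp_lexp act zetaC AuxLevel CPlace mapSer
  twistSer)
open Toric (Normed HasContent IsSmall)

variable {q M m : ℕ} [hq : Fact q.Prime] [NeZero M] {P : CPlace q}

/-! ### Absolute values by type -/

section

omit hq [NeZero M]

/-- Typed absolute values multiply. -/
theorem HasTyp.mul {f g : ℍ → ℂ} {r r' : Typ → ℝ} (hf : HasTyp q M P f r)
    (hg : HasTyp q M P g r') : HasTyp q M P (f * g) (r * r') := fun t γ hγ => by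
  obtain ⟨s, hs, hr⟩ := hf t γ hγ
  obtain ⟨s', hs', hr'⟩ := hg t γ hγ
  exact ⟨s * s', (hs.mul hs').congr_fun fun τ => rfl, hr.mul hr'⟩

/-- Typed absolute values of powers. -/
theorem HasTyp.pow {f : ℍ → ℂ} {r : Typ → ℝ} (hf : HasTyp q M P f r) (a : ℕ) :
    HasTyp q M P (f ^ a) (r ^ a) := fun t γ hγ => by
  obtain ⟨s, hs, hr⟩ := hf t γ hγ
  exact ⟨s ^ a, (hs.pow a).congr_fun fun τ => rfl, hr.pow a⟩

/-- The typed absolute values of a constant. -/
theorem hasTyp_const {c : ℂ} (hc : c ≠ 0) :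
    HasTyp q M P (fun _ => c) (fun _ => P.abv c) := fun _ _ _ =>
  ⟨_, HasLExp.const c, hasAbs_C hc⟩

/-- Typed absolute values of a constant multiple. -/
theorem HasTyp.const_mul {f : ℍ → ℂ} {r : Typ → ℝ} (hf : HasTyp q M P f r) {c : ℂ} (hc : c ≠ 0) :
    HasTyp q M P ((fun _ => c) * f) (fun t => P.abv c * r t) :=
  (hasTyp_const hc).mul hf

end

/-- Typed absolute values are positive. -/
theorem HasTyp.pos (hM : M.Coprime q) {f : ℍ → ℂ} {r : Typ → ℝ} (hf : HasTyp q M P f r)
    (t : Typ) : 0 < r t := by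
  obtain ⟨s, -, hr⟩ := hf t _ (isTyp_cusp hM t 1)
  exact hr.pos

/-- A function with typed absolute values is not zero. -/
theorem HasTyp.ne_zero (hM : M.Coprime q) {f : ℍ → ℂ} {r : Typ → ℝ} (hf : HasTyp q M P f r) :
    f ≠ 0 := fun h0 => by
  obtain ⟨s, hs, hr⟩ := hf .inf _ (isTyp_cusp hM .inf 1)
  rw [h0] at hs
  exact hr.ne_zero ((lexp_eq hs).symm.trans (lexp_eq (HasLExp.zero (M := q * M))))

section

omit [NeZero M]

/-- An antidiagonal translate exchanges the types. -/
theorem HasTyp.act_antidiag {f : ℍ → ℂ} {r : Typ → ℝ} (hf : HasTyp q M P f r) {g : SL(2, ℤ)}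
    (h00 : ent q g 0 0 = 0) (h11 : ent q g 1 1 = 0) :
    HasTyp q M P (act g f) (r ∘ Typ.swap) := fun t γ hγ => by
  obtain ⟨k1, k2, k3⟩ := isTyp_antidiag_mul (γ := γ) h00 h11
  obtain ⟨s, hs, hr⟩ := hf t.swap (g * γ) (by
    cases t
    exacts [k2.mpr hγ, k3.mpr hγ, k1.mpr hγ])
  exact ⟨s, by rwa [← ES.act_mul], hr⟩

theorem act_trProd (γ : SL(2, ℤ)) (f : ℍ → ℂ) :
    act γ (trProd q M f) = ∏ j : ZMod q, act (ModularGroup.T ^ (M * j.val) * γ) f := by
  rw [trProd, ES.act_prod]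
  exact Finset.prod_congr rfl fun j _ => (ES.act_mul _ _ _).symm

/-- The typed absolute values of the product of the translates. -/
theorem HasTyp.trProd (hM : M.Coprime q) {f : ℍ → ℂ} {r : Typ → ℝ} (hf : HasTyp q M P f r) :
    HasTyp q M P (trProd q M f)
      (fun t => if t = .inf then r .inf ^ q else r .zero * r .mid ^ (q - 1)) := fun t γ hγ => by
  classical
  have hT : ∀ j : ZMod q, ∃ s, HasLExp (q * M) (act (ModularGroup.T ^ (M * j.val) * γ) f) s ∧
      ∀ t', IsTyp q t' (ModularGroup.T ^ (M * j.val) * γ) → HasAbs P s (r t') := fun j => by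
    obtain ⟨t', ht'⟩ := exists_isTyp (q := q) (ModularGroup.T ^ (M * j.val) * γ)
    obtain ⟨s, hs, hr⟩ := hf t' _ ht'
    exact ⟨s, hs, fun t'' ht'' => isTyp_unique ht' ht'' ▸ hr⟩
  choose s hs hr using hT
  refine ⟨∏ j, s j, by rw [act_trProd]; exact HasLExp.prod _ fun j _ => hs j, ?_⟩
  show HasAbs P _ (if t = .inf then r .inf ^ q else r .zero * r .mid ^ (q - 1))
  by_cases ht : t = .inf
  · subst ht
    rw [if_pos rfl, show r .inf ^ q = ∏ _j : ZMod q, r .inf by
      rw [Finset.prod_const, Finset.card_univ, ZMod.card]]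
    exact HasAbs.prod _ fun j _ => hr j .inf ((ent_T_pow_mul j γ).2.trans hγ)
  · rw [if_neg ht]
    have hc : ent q γ 1 0 ≠ 0 := fun h => ht (isTyp_unique hγ (t' := .inf) h)
    have hMc : (M : ZMod q) * ent q γ 1 0 ≠ 0 := mul_ne_zero (natCast_M_ne_zero hM) hc
    set j0 : ZMod q := -ent q γ 0 0 / ((M : ZMod q) * ent q γ 1 0) with hj0
    have h0 : IsTyp q .zero (ModularGroup.T ^ (M * j0.val) * γ) := by
      show ent q _ 0 0 = 0
      rw [(ent_T_pow_mul (M := M) j0 γ).1, hj0]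
      field_simp [natCast_M_ne_zero hM]
      ring
    have hmid : ∀ j, j ≠ j0 → IsTyp q .mid (ModularGroup.T ^ (M * j.val) * γ) := fun j hj => by
      obtain ⟨h00, h10⟩ := ent_T_pow_mul (M := M) j γ
      refine ⟨fun h => hj ?_, by rw [h10]; exact hc⟩
      rw [h00] at h
      rw [hj0, eq_div_iff hMc]
      linear_combination h
    rw [show r .zero * r .mid ^ (q - 1) = ∏ j : ZMod q, if j = j0 then r .zero else r .mid by
      rw [← Finset.mul_prod_erase _ _ (Finset.mem_univ j0), if_pos rfl,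
        Finset.prod_congr rfl fun j hj => if_neg (Finset.ne_of_mem_erase hj), Finset.prod_const,
        Finset.card_erase_of_mem (Finset.mem_univ j0), Finset.card_univ, ZMod.card]]
    refine HasAbs.prod _ fun j _ => ?_
    split_ifs with hj
    · subst hj; exact hr _ .zero h0
    · exact hr j .mid (hmid j hj)

end

/-! ### Roots -/

variable (q M P) in
/-- A root of an invariant function, with fixed expansion at `∞`. -/
structure RootFun (n : ℕ) (χ : lamD q M →* ℂˣ) (f : ℍ → ℂ) : Prop where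
  pow_eq : χ ^ n = 1
  act_eq : ∀ δ : lamD q M, act (δ : SL(2, ℤ)) f = (fun _ => ((χ δ : ℂˣ) : ℂ)) * f
  exp : ∀ γ, ∃ s, HasLExp (q * M) (act γ f) s ∧ HasContent P s
  one : ∃ s, HasLExp (q * M) (act 1 f) s ∧ SerIn (fixSub P).toSubring s

namespace RootFun

variable {n : ℕ} {χ χ' : lamD q M →* ℂˣ} {f g : ℍ → ℂ}

omit hq [NeZero M] in
/-- Roots multiply. -/
theorem mul (hf : RootFun q M P n χ f) (hg : RootFun q M P n χ' g) :
    RootFun q M P n (χ * χ') (f * g) where
  pow_eq := MonoidHom.ext fun δ => by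
    have h1 := DFunLike.congr_fun hf.pow_eq δ
    have h2 := DFunLike.congr_fun hg.pow_eq δ
    simp only [MonoidHom.pow_apply, MonoidHom.one_apply] at h1 h2
    simp [mul_pow, h1, h2]
  act_eq δ := by
    rw [ES.act_mulFun, hf.act_eq, hg.act_eq]
    funext τ
    simp only [Pi.mul_apply, MonoidHom.mul_apply, Units.val_mul]
    ring
  exp γ := by
    obtain ⟨s, hs, hc⟩ := hf.exp γ
    obtain ⟨s', hs', hc'⟩ := hg.exp γ
    exact ⟨s * s', (hs.mul hs').congr_fun fun τ => rfl, hc.mul hc'⟩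
  one := by
    obtain ⟨s, hs, hc⟩ := hf.one
    obtain ⟨s', hs', hc'⟩ := hg.one
    exact ⟨s * s', (hs.mul hs').congr_fun fun τ => rfl, hc.mul hc'⟩

/-- Invariant functions with fixed expansion are roots with trivial multiplier. -/
theorem of_fixR {f : ℍ → ℂ} (hf : f ∈ FixR q M P) {r : Typ → ℝ}
    (hr : HasTyp q M P f r) : RootFun q M P n (1 : lamD q M →* ℂˣ) f where
  pow_eq := MonoidHom.ext fun δ => by simp
  act_eq δ := by
    rw [hf.2.1 _ δ.2]
    funext τ
    simp
  exp γ := by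
    obtain ⟨t, ht⟩ := exists_isTyp (q := q) γ
    obtain ⟨s, hs, h⟩ := hr t γ ht
    exact ⟨s, hs, h.hasContent⟩
  one := ⟨_, hasLExp_lexp hf.1 1, hf.2.2⟩

omit hq [NeZero M] in
/-- Powers of roots are roots. -/
theorem pow (hf : RootFun q M P n χ f) : ∀ a : ℕ, RootFun q M P n (χ ^ a) (f ^ a)
  | 0 => by
    rw [show χ ^ 0 = 1 from MonoidHom.ext fun δ => by simp, pow_zero]
    exact
      { pow_eq := MonoidHom.ext fun δ => by simp
        act_eq := fun δ => by funext τ; simp [act]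
        exp := fun γ => ⟨1, HasLExp.one.congr_fun fun τ => rfl, hasAbs_one.hasContent⟩
        one := ⟨1, HasLExp.one.congr_fun fun τ => rfl, SerIn.one⟩ }
  | a + 1 => by
    rw [show χ ^ (a + 1) = χ ^ a * χ from MonoidHom.ext fun δ => by simp [pow_succ], pow_succ]
    exact (hf.pow a).mul hf

omit hq [NeZero M] in
theorem pow_apply_eq_one (hf : RootFun q M P n χ f) (δ : lamD q M) :
    ((χ δ : ℂˣ) : ℂ) ^ n = 1 := by
  have h := congrArg (fun x : ℂˣ => (x : ℂ)) (DFunLike.congr_fun hf.pow_eq δ)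
  simpa using h

/-- The power is an invariant function. -/
theorem pow_mem (hf : RootFun q M P n χ f) : f ^ n ∈ FixR q M P := by
  have hinv : ∀ δ ∈ lamD q M, act δ (f ^ n) = f ^ n := fun δ hδ => by
    have h := congrArg (fun g : ℍ → ℂ => g ^ n) (hf.act_eq ⟨δ, hδ⟩)
    simp only [mul_pow] at h
    refine Eq.trans (funext fun τ => rfl) (h.trans (funext fun τ => ?_))
    simp only [Pi.mul_apply, Pi.pow_apply, hf.pow_apply_eq_one, one_mul]
  obtain ⟨s1, hs1, hfix⟩ := hf.one
  refine ⟨⟨fun γ hγ => hinv γ (gamma_qM_le_lamD hγ), fun γ => ?_⟩, hinv, ?_⟩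
  · obtain ⟨s, hs, -⟩ := hf.exp γ
    exact ⟨s ^ n, (hs.pow n).congr_fun fun τ => rfl⟩
  · rw [lexp_eq ((hs1.pow n).congr_fun (g := act 1 (f ^ n)) fun τ => rfl)]
    exact hfix.pow n

/-- The absolute values of a root depend only on the type. -/
theorem exists_typ {Φ : ℂ ≃+* PadicAlgCl q} (haux : AuxLevel M m) (hM : M.Coprime q)
    (hqm : q ≠ m) (hn : n ≠ 0) (hf : RootFun q M (CPlace.ofEquiv Φ) n χ f) :
    ∃ r, HasTyp q M (CPlace.ofEquiv Φ) f r := by
  have hf0 : f ^ n ≠ 0 := fun h0 => by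
    obtain ⟨s, hs, hc⟩ := hf.exp 1
    refine pow_ne_zero n hc.ne_zero ?_
    rw [← lexp_eq ((hs.pow n).congr_fun (g := act 1 (f ^ n)) fun τ => rfl), h0,
      lexp_eq (HasLExp.zero (M := q * M))]
  obtain ⟨r', hr'⟩ := exists_hasTyp haux hM hqm hf.pow_mem hf0
  choose s hs hc using hf.exp
  choose c hc' using fun γ => exists_hasAbs (hc γ)
  refine ⟨fun t => c (cusp hM t 1), fun t γ hγ => ⟨s γ, hs γ, ?_⟩⟩
  have key : ∀ δ, IsTyp q t δ → c δ ^ n = r' t := fun δ hδ => by
    obtain ⟨u, hu, hru⟩ := hr' t δ hδ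
    rw [← lexp_eq hu, lexp_eq (((hs δ).pow n).congr_fun (g := act δ (f ^ n)) fun τ => rfl)] at hru
    exact ((hc' δ).pow n).unique hru
  show HasAbs _ _ (c (cusp hM t 1))
  rw [← (pow_left_inj₀ (hc' γ).pos.le (hc' _).pos.le hn).mp
    ((key γ hγ).trans (key _ (isTyp_cusp hM t 1)).symm)]
  exact hc' γ

omit [NeZero M] in
/-- The translate by a normalising matrix, when its expansion at `∞` is fixed. -/
theorem act_norm (hf : RootFun q M P n χ f) {g : SL(2, ℤ)} (hg : IsNorm q g) {c : ℂ} (hc : c ≠ 0)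
    (hone : ∃ s, HasLExp (q * M) (act g f) s ∧
      SerIn (fixSub P).toSubring (HahnSeries.C c * s)) :
    RootFun q M P n (χ.comp (conjN hg)) ((fun _ => c) * act g f) where
  pow_eq := MonoidHom.ext fun δ => by
    simpa using DFunLike.congr_fun hf.pow_eq (conjN hg δ)
  act_eq δ := by
    rw [ES.act_mulFun, ← ES.act_mul, show g * (δ : SL(2, ℤ)) = g * δ * g⁻¹ * g by group,
      ES.act_mul, ← coe_conjN hg, hf.act_eq, ES.act_mulFun]
    funext τ
    simp only [act, Pi.mul_apply, MonoidHom.coe_comp, Function.comp_apply]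
    ring
  exp γ := by
    obtain ⟨s, hs, hcs⟩ := hf.exp (g * γ)
    refine ⟨HahnSeries.C c * s, ((HasLExp.const c).mul hs).congr_fun fun τ => ?_, hcs.C_mul hc⟩
    rw [ES.act_mulFun, ← ES.act_mul]
    rfl
  one := by
    obtain ⟨s, hs, hfix⟩ := hone
    exact ⟨_, ((HasLExp.const c).mul hs).congr_fun fun τ => by rw [ES.act_one], hfix⟩

section

omit hq

/-- Conjugates of a root differ by a root of unity. -/
theorem exists_mapSer_eq {s : LaurentSeries ℂ} (hs : HasContent P s) (hn : n ≠ 0)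
    (hfix : SerIn (fixSub P).toSubring (s ^ n)) {σ : ℂ ≃+* ℂ} (hσ : IsSmall P σ) :
    ∃ ω : ℂ, ω ^ n = 1 ∧ mapSer (σ : ℂ →+* ℂ) s = HahnSeries.C ω * s := by
  have : NeZero n := ⟨hn⟩
  have hζ := (ES.zetaC_isPrimitiveRoot n).map_of_injective
    (HahnSeries.C_injective : Function.Injective (HahnSeries.C : ℂ →+* LaurentSeries ℂ))
  have hone : (mapSer (σ : ℂ →+* ℂ) s / s) ^ n = 1 := by
    rw [div_pow, ← map_pow, serIn_fixSub_iff.mp hfix σ hσ, div_self (pow_ne_zero n hs.ne_zero)]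
  obtain ⟨j, -, hj⟩ := hζ.eq_pow_of_pow_eq_one hone
  refine ⟨zetaC n ^ j, by
    rw [← pow_mul, mul_comm, pow_mul, (ES.zetaC_isPrimitiveRoot n).pow_eq_one, one_pow], ?_⟩
  rw [map_pow, hj, div_mul_cancel₀ _ hs.ne_zero]

/-- A root divided by one of its coefficients has fixed coefficients. -/
theorem serIn_div_coeff {s : LaurentSeries ℂ} (hs : HasContent P s) (hn : n ≠ 0)
    (hfix : SerIn (fixSub P).toSubring (s ^ n)) {i : ℤ} (hi : s.coeff i ≠ 0) :
    SerIn (fixSub P).toSubring (HahnSeries.C (s.coeff i)⁻¹ * s) := by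
  intro k σ hσ
  obtain ⟨ω, hω, e⟩ := exists_mapSer_eq hs hn hfix hσ
  have e' : ∀ l, σ (s.coeff l) = ω * s.coeff l := fun l => by
    have h := congrArg (fun x => HahnSeries.coeff x l) e
    simpa only [ES.coeff_mapSer, RingEquiv.coe_toRingHom, Toric.coeff_C_mul'] using h
  have hω0 : ω ≠ 0 := fun h => by simp [h, zero_pow hn] at hω
  rw [Toric.coeff_C_mul', map_mul, map_inv₀, e', e']
  field_simp

/-- A normed root has fixed coefficients. -/
theorem serIn_of_normed {s : LaurentSeries ℂ} (hs : Normed P s) (hn : n ≠ 0) (hnq : n.Coprime q)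
    (hfix : SerIn (fixSub P).toSubring (s ^ n)) : SerIn (fixSub P).toSubring s := by
  have : NeZero n := ⟨hn⟩
  intro k σ hσ
  obtain ⟨ω, hω, e⟩ := exists_mapSer_eq hs.hasContent hn hfix hσ
  obtain ⟨i, hi⟩ := hs.2
  have e' : ∀ l, σ (s.coeff l) = ω * s.coeff l := fun l => by
    have h := congrArg (fun x => HahnSeries.coeff x l) e
    simpa only [ES.coeff_mapSer, RingEquiv.coe_toRingHom, Toric.coeff_C_mul'] using h
  obtain ⟨j, -, hj⟩ := (ES.zetaC_isPrimitiveRoot n).eq_pow_of_pow_eq_one hω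
  suffices h1 : ω = 1 by rw [e', h1, one_mul]
  by_contra hne
  have hu := P.abv_eq_one_of_unitIn ((P.goodRoot hnq).unit_one_sub j fun hd => hne (by
    rw [← hj]; exact ((ES.zetaC_isPrimitiveRoot n).pow_eq_one_iff_dvd j).mpr hd))
  have hlt := hσ _ hi.le
  rw [e', show ω * s.coeff i - s.coeff i = -((1 - ω) * s.coeff i) by ring, AbsoluteValue.map_neg,
    map_mul, hi, mul_one, ← hj, hu] at hlt
  exact lt_irrefl _ hlt

end

omit [NeZero M] in
/-- The product of the translates is invariant when the transfers are trivial. -/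
theorem trProd_inv (hM : M.Coprime q) (hf : RootFun q M P n χ f) (hk : TrKills q M χ)
    {γ : SL(2, ℤ)} (hγ : γ ∈ lam q M) : act γ (trProd q M f) = trProd q M f := by
  obtain ⟨π, δ, hd⟩ := exists_perm_mat hM hγ
  rw [act_trProd]
  have e : ∀ j, act (ModularGroup.T ^ (M * j.val) * γ) f =
      (fun _ => ((χ (δ j) : ℂˣ) : ℂ)) * act (ModularGroup.T ^ (M * (π j).val)) f := fun j => by
    rw [hd j, ES.act_mul, hf.act_eq, ES.act_mulFun]
    rfl
  simp only [e, Finset.prod_mul_distrib]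
  rw [Equiv.prod_comp π fun j => act (ModularGroup.T ^ (M * j.val)) f]
  funext τ
  simp only [Pi.mul_apply, Finset.prod_apply, ← Units.coe_prod, hk γ hγ π δ hd, Units.val_one,
    one_mul, trProd]

/-- **The product over the translates is invariant with fixed expansion.** -/
theorem trProd_mem (hM : M.Coprime q) (hf : RootFun q M P n χ f) (hk : TrKills q M χ) :
    trProd q M f ∈ FixR q M P := by
  have hexp : ∀ γ, ∃ s, HasLExp (q * M) (act γ (trProd q M f)) s := fun γ => by
    choose s hs _ using fun j : ZMod q => hf.exp (ModularGroup.T ^ (M * j.val) * γ)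
    exact ⟨∏ j, s j, by rw [act_trProd]; exact HasLExp.prod _ fun j _ => hs j⟩
  refine ⟨⟨fun γ hγ => hf.trProd_inv hM hk (lamD_le (gamma_qM_le_lamD hγ)), hexp⟩,
    fun δ hδ => hf.trProd_inv hM hk (lamD_le hδ), ?_⟩
  obtain ⟨s, hs, hfix⟩ := hf.one
  have h1 : HasLExp (q * M) (act 1 (trProd q M f))
      (∏ j : ZMod q, twistSer (zetaC (q * M) ^ (M * j.val)) s) := by
    rw [act_trProd]
    refine HasLExp.prod _ fun j _ => ?_
    rw [mul_one]
    rw [ES.act_one] at hs
    exact ES.hasLExp_act_T_pow hs _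
  rw [lexp_eq h1]
  refine serIn_fixSub_iff.mpr fun σ hσ => ?_
  obtain ⟨D, rfl⟩ := exists_inertData (M := M) (P := P) (O := ⊤) σ hσ fun _ _ => trivial
  have e : ∀ j : ZMod q, mapSer (D.σ : ℂ →+* ℂ) (twistSer (zetaC (q * M) ^ (M * j.val)) s) =
      twistSer (zetaC (q * M) ^ (M * ((D.a : ZMod q) * j).val)) s := fun j => by
    ext i
    rw [ES.coeff_mapSer, ES.coeff_twistSer, ES.coeff_twistSer, RingEquiv.coe_toRingHom, map_mul,
      map_zpow₀, map_pow, hfix i _ D.small, D.zeta, ← pow_mul]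
    congr 2
    refine pow_eq_pow_of_modEq ?_ (ES.zetaC_isPrimitiveRoot (q * M)).pow_eq_one
    rw [mul_left_comm, mul_comm q M]
    refine Nat.ModEq.mul_left' M ((ZMod.natCast_eq_natCast_iff _ _ q).mp ?_)
    rw [Nat.cast_mul, ZMod.natCast_zmod_val, ZMod.natCast_zmod_val]
  rw [map_prod]
  simp only [e]
  exact Equiv.prod_comp (Equiv.mulLeft₀ (D.a : ZMod q)
      (ES.isUnit_natCast_of_dvd (dvd_mul_right q M) D.unit).ne_zero)
    fun j => twistSer (zetaC (q * M) ^ (M * j.val)) s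

end RootFun

end FermatAgent.BAD.Sq

end
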