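import Fermat.Agent.BAD.Sq.Elem.Fix

/-!
# The absolute values of an invariant function depend only on the type of the cusp
-/

set_option autoImplicit false

open UpperHalfPlane CongruenceSubgroup
open scoped MatrixGroups

noncomputable section

namespace FermatAgent.BAD.Sq

open FermatAgent.ES (BSub BRing SerIn HasLExp lexp lexp_eq hasLExp_lexp act zetaC AuxLevel CPlace)
open FermatAgent.BAD.TwoP
open Toric (Normed HasContent)

variable {q M m : ℕ} [hq : Fact q.Prime] [NeZero M]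

variable (q M) in
/-- The absolute values at the cusps are given by the type. -/
def HasTyp (P : CPlace q) (f : ℍ → ℂ) (r : Typ → ℝ) : Prop :=
  ∀ (t : Typ) (γ : SL(2, ℤ)), IsTyp q t γ →
    ∃ s, HasLExp (q * M) (act γ f) s ∧ HasAbs P s (r t)

section Const

variable {P : CPlace q} (C : Coef M P) (haux : AuxLevel M m) (hM : M.Coprime q) (hqm : q ≠ m)

include haux hM hqm in
/-- A function separating the type `t`. -/
theorem exists_sep (t : Typ) : ∃ e : A0 C, ∀ (t' : Typ) (γ : SL(2, ℤ)), IsTyp q t' γ →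
    (e ∈ smA C γ ↔ t' ≠ t) := by
  obtain ⟨e, he⟩ : ∃ e : A0 C, ∀ t', e ∈ PT C hM t' ↔ t' ≠ t := by
    cases t
    exacts [⟨_, eInf_mem_PT_iff C haux hM hqm⟩, ⟨_, eMid_mem_PT_iff C haux hM hqm⟩,
      ⟨_, eZero_mem_PT_iff C haux hM hqm⟩]
  exact ⟨e, fun t' γ h => ⟨fun hs => (he t').mp (mem_PT_of_smA C haux hM hqm h hs),
    fun ht => smA_of_mem_PT C haux hM hqm ((he t').mpr ht) h⟩⟩

include haux in
/-- Coefficients of absolute value at most `|q| ^ k` everywhere give a multiple of `q ^ k`. -/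
theorem q_pow_dvd_of_serLE (k : ℕ) : ∀ {z : A0 C},
    (∀ γ, P.SerLE (P.abv (q : ℂ) ^ k) (serA C γ z)) → (q : A0 C) ^ k ∣ z := by
  induction k with
  | zero => exact fun _ => by rw [pow_zero]; exact one_dvd _
  | succ k ih =>
    intro z hz
    obtain ⟨w, rfl⟩ := q_dvd_of_serLE C haux fun γ => (hz γ).mono
      (pow_le_of_le_one (P.abv.nonneg _) P.lt_one.le k.succ_ne_zero)
    rw [pow_succ']
    refine mul_dvd_mul_left _ (ih fun γ n => ?_)
    have h := hz γ n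
    rw [map_mul, map_natCast, ← map_natCast (HahnSeries.C : ℂ →+* LaurentSeries ℂ),
      Toric.coeff_C_mul', map_mul, pow_succ'] at h
    exact le_of_mul_le_mul_left h PSEMI.abv_p_pos

include haux hM hqm in
/-- Minimal contents spread over a type. -/
theorem exponent_le {z : A0 C} {t : Typ} {γ γ' : SL(2, ℤ)} (hγ : IsTyp q t γ)
    (hγ' : IsTyp q t γ') {k k' : ℕ} (hk : HasAbs P (serA C γ z) (P.abv (q : ℂ) ^ k))
    (hk' : HasAbs P (serA C γ' z) (P.abv (q : ℂ) ^ k'))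
    (hmin : ∀ δ, IsTyp q t δ → P.SerLE (P.abv (q : ℂ) ^ k) (serA C δ z)) : k' ≤ k := by
  have := C.cdvr.dvr
  by_contra hlt
  push Not at hlt
  obtain ⟨e, he⟩ := exists_sep C haux hM hqm t
  obtain ⟨ϖ, hϖ⟩ := IsDiscreteValuationRing.exists_irreducible C.O
  obtain ⟨i, u, hi⟩ := IsDiscreteValuationRing.eq_unit_mul_pow_irreducible
    (show (q : C.O) ≠ 0 from fun h => natCast_q_ne_zero (q := q) (O := C.O) (by rw [h]; rfl)) hϖ
  have hqi : P.abv (q : ℂ) = P.abv (ϖ : ℂ) ^ i := by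
    have h1 := congrArg (fun z : C.O => P.abv (z : ℂ)) hi
    simp only [Subring.coe_mul, SubmonoidClass.coe_pow, map_mul, map_pow,
      (C.cdvr.isUnit_iff _).mp u.isUnit, one_mul] at h1
    simpa using h1
  have hsmall : ∀ δ, e ∈ smA C δ → P.SerLE (P.abv (ϖ : ℂ)) (serA C δ e) := fun δ hδ n => by
    obtain ⟨w, hw, ew⟩ := exists_eq_unif_mul C.cdvr hϖ (serIn_serA C δ e n) (hδ n)
    rw [ew, map_mul]
    exact mul_le_of_le_one_right (P.abv.nonneg _) (C.cdvr.le hw)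
  have hint : ∀ δ (x : A0 C), SerIn P.ring (serA C δ x) := fun δ x n =>
    C.cdvr.le (serIn_serA C δ x n)
  have hunit : ∀ δ, IsTyp q t δ → HasAbs P (serA C δ e) 1 := fun δ hδ => by
    have hno : ¬ P.SerLT (serA C δ e) := fun h => (he t δ hδ).mp h rfl
    refine hasAbs_of_normed ⟨hint δ e, ?_⟩
    by_contra hu
    exact hno (P.serLT_of_not_unitCoeff (hint δ e) hu)
  obtain ⟨w, hw⟩ := q_pow_dvd_of_serLE C haux k (z := z * e ^ (i * k)) fun δ => by
    obtain ⟨t', ht'⟩ := exists_isTyp (q := q) δ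
    rw [map_mul, map_pow]
    by_cases htt : t' = t
    · subst htt
      exact (hmin δ ht').mul_serIn (pow_nonneg (P.abv.nonneg _) _) ((hint δ e).pow _)
    · have h1 := hsmall δ ((he t' δ ht').mpr htt)
      have h2 : ∀ l : ℕ, P.SerLE (P.abv (ϖ : ℂ) ^ l) (serA C δ e ^ l) := fun l => by
        induction l with
        | zero => rw [pow_zero, pow_zero]; exact P.serLE_one_iff.mpr SerIn.one
        | succ l ih =>
          rw [pow_succ, pow_succ]
          exact ih.mul (pow_nonneg (P.abv.nonneg _) _) (P.abv.nonneg _) h1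
      have h3 := h2 (i * k)
      rw [pow_mul, ← hqi] at h3
      exact CPlace.SerLE.serIn_mul (pow_nonneg (P.abv.nonneg _) _) (hint δ z) h3
  have key : ∀ δ, IsTyp q t δ → ∀ l : ℕ, HasAbs P (serA C δ z) (P.abv (q : ℂ) ^ l) →
      ∃ r, HasAbs P (serA C δ w) r ∧ P.abv (q : ℂ) ^ k * r = P.abv (q : ℂ) ^ l := by
    intro δ hδ l hl
    have h1 := hl.mul ((hunit δ hδ).pow (i * k))
    rw [← map_pow (serA C δ), ← map_mul, hw, map_mul, map_pow, map_natCast,
      ← map_natCast (HahnSeries.C : ℂ →+* LaurentSeries ℂ), ← map_pow, one_pow, mul_one] at h1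
    have hq0 : (q : ℂ) ^ k ≠ 0 := pow_ne_zero k (Nat.cast_ne_zero.mpr hq.out.ne_zero)
    have h2 := h1.C_mul (inv_ne_zero hq0)
    rw [← mul_assoc, ← map_mul, inv_mul_cancel₀ hq0, map_one, one_mul] at h2
    refine ⟨_, h2, ?_⟩
    rw [map_inv₀, map_pow, mul_inv_cancel_left₀ (pow_ne_zero k PSEMI.abv_p_pos.ne')]
  obtain ⟨r, hr, e1⟩ := key γ hγ k hk
  obtain ⟨r', hr', e2⟩ := key γ' hγ' k' hk'
  have hr1 : r = 1 := by
    refine mul_left_cancel₀ (pow_ne_zero k (PSEMI.abv_p_pos (P := P)).ne') ?_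
    rw [e1, mul_one]
  have hs : w ∈ smA C γ' := by
    refine (hr'.serLT_iff).mpr ?_
    by_contra hge
    push Not at hge
    have := pow_lt_pow_right_of_lt_one₀ PSEMI.abv_p_pos P.lt_one hlt
    rw [← e2] at this
    exact not_lt.mpr (le_mul_of_one_le_right (pow_nonneg (P.abv.nonneg _) _) hge) this
  have hs' := smA_of_mem_PT C haux hM hqm (mem_PT_of_smA C haux hM hqm hγ' hs) hγ
  exact (hr.serLT_iff.mp hs').ne hr1

end Const

/-- A pair of coefficient rings with exponent divisible by a given one. -/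
theorem exists_coef_dvd (Φ : ℂ ≃+* PadicAlgCl q) (hM : M.Coprime q) {N₀ : ℕ} (hN₀ : N₀ ≠ 0) :
    ∃ (N : ℕ) (_ : NeZero N), N₀ ∣ N ∧
      ∃ C : Coef M (CPlace.ofEquiv Φ), C.O = lRing Φ N ∧ C.O0 = uRing Φ N := by
  have : NeZero (N₀ * M.totient) :=
    ⟨mul_ne_zero hN₀ (Nat.totient_pos.mpr (NeZero.pos M)).ne'⟩
  have hd : M ∣ q ^ (N₀ * M.totient) - 1 := by
    refine (Nat.modEq_iff_dvd' (Nat.one_le_pow _ _ hq.out.pos)).mp ?_
    have h := (Nat.ModEq.pow_totient (Nat.Coprime.symm hM)).pow N₀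
    rw [one_pow, ← pow_mul, mul_comm] at h
    exact h.symm
  obtain ⟨C, hC, hC0, -⟩ := exists_coef Φ hM hd
  exact ⟨_, inferInstance, dvd_mul_right _ _, C, hC, hC0⟩

/-- **The absolute values of an invariant function depend only on the type.** -/
theorem exists_hasTyp {Φ : ℂ ≃+* PadicAlgCl q} (haux : AuxLevel M m) (hM : M.Coprime q)
    (hqm : q ≠ m) {y : ℍ → ℂ} (hy : y ∈ FixR q M (CPlace.ofEquiv Φ)) (hy0 : y ≠ 0) :
    ∃ r : Typ → ℝ, HasTyp q M (CPlace.ofEquiv Φ) y r := by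
  classical
  set P := CPlace.ofEquiv Φ
  have hP := ES.hasCDVRs_ofEquiv Φ
  obtain ⟨e, he0, habs⟩ := exists_abs (P := P) haux hM hP hy.1 hy0
  choose r k hr hk using habs
  obtain ⟨j, hj⟩ := exists_pow_mul_mem (P := P) haux hM hP hy.1
  set u : ℍ → ℂ := (fun _ => (q : ℂ) ^ j) * y
  have huF : u ∈ FixR q M P :=
    mul_mem (const_mem_FixR (pow_mem (natCast_mem_fixSub q) j)) hy
  have hzF : u ^ e ∈ FixR q M P := pow_mem huF e
  obtain ⟨N₀, hN₀, hN⟩ := exists_mem_lRing haux hM Φ hzF (pow_mem hj e)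
  obtain ⟨N, hN0, hdvd, C, hC, hC0⟩ := exists_coef_dvd Φ hM hN₀
  set z : A0 C := ⟨u ^ e, mem_A0_of_fix hC hC0 hzF (hN N hdvd)⟩
  have hz : ∀ γ, ∃ l : ℕ, (l : ℤ) = j * e + k γ ∧
      HasAbs P (serA C γ z) (P.abv (q : ℂ) ^ l) := by
    intro γ
    have h1 : HasAbs P (lexp (q * M) γ u) (P.abv (q : ℂ) ^ j * r γ) := by
      rw [lexp_const_mul hy.1, ← map_pow]
      exact (hr γ).C_mul (pow_ne_zero _ (Nat.cast_ne_zero.mpr hq.out.ne_zero))
    have h2 := h1.pow e
    have hser : lexp (q * M) γ u ^ e = serA C γ z := by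
      rw [serA_apply]
      refine (lexp_eq ?_).symm
      exact ((hasLExp_lexp huF.1 γ).pow e).congr_fun fun τ => rfl
    rw [hser, mul_pow, hk γ, ← pow_mul, ← zpow_natCast,
      ← zpow_add₀ PSEMI.abv_p_pos.ne'] at h2
    have h3 := h2.le_one fun n => C.cdvr.le (serIn_serA C γ z n)
    have h4 : 0 ≤ ((j * e : ℕ) : ℤ) + k γ :=
      (zpow_le_one_iff_right_of_lt_one₀ PSEMI.abv_p_pos P.lt_one).mp h3
    obtain ⟨l, hl⟩ := Int.eq_ofNat_of_zero_le h4
    refine ⟨l, by rw [← hl]; push_cast; ring, ?_⟩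
    rwa [hl, zpow_natCast] at h2
  choose l hl hzl using hz
  have hconst : ∀ t γ γ', IsTyp q t γ → IsTyp q t γ' → r γ = r γ' := by
    intro t γ γ' hγ hγ'
    have hex : ∃ i, ∃ δ, IsTyp q t δ ∧ l δ = i := ⟨l γ, γ, hγ, rfl⟩
    obtain ⟨δ, hδ, hmin⟩ := Nat.find_spec hex
    have hle : ∀ δ', IsTyp q t δ' → l δ' = l δ := fun δ' hδ' => by
      refine le_antisymm (exponent_le C haux hM hqm hδ hδ' (hzl δ) (hzl δ') fun ε hε => ?_) ?_
      · refine (hzl ε).serLE (pow_le_pow_of_le_one (P.abv.nonneg _) P.lt_one.le ?_)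
        rw [hmin]
        exact Nat.find_le ⟨ε, hε, rfl⟩
      · rw [hmin]
        exact Nat.find_le ⟨δ', hδ', rfl⟩
    have hkk : k γ = k γ' := by
      have h1 := hl γ
      have h2 := hl γ'
      rw [hle γ hγ] at h1
      rw [hle γ' hγ'] at h2
      linarith
    exact (pow_left_inj₀ (hr γ).pos.le (hr γ').pos.le he0).mp (by rw [hk, hk, hkk])
  have hrep : ∀ t : Typ, ∃ γ : SL(2, ℤ), IsTyp q t γ := fun t => ⟨_, isTyp_cusp hM t 1⟩
  choose rep hrep using hrep
  refine ⟨fun t => r (rep t), fun t γ hγ => ⟨_, hasLExp_lexp hy.1 γ, ?_⟩⟩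
  show HasAbs P _ (r (rep t))
  rw [← hconst t γ (rep t) hγ (hrep t)]
  exact hr γ

end FermatAgent.BAD.Sq

end
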